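import Mathlib

/-!
# Kummer's lemma as a property (shared definitions for the classical FLT library)
-/

set_option autoImplicit false

namespace Fermat.Agent.KummerL

open NumberField

/-- Kummer's lemma for the field `K` and the prime `p`: a unit of `𝓞 K` that is congruent to a
rational integer modulo `p` is a `p`-th power of a unit. -/
def KummerLemmaHolds (p : ℕ) (K : Type*) [Field K] [NumberField K] : Prop :=
  ∀ u : (𝓞 K)ˣ, (∃ n : ℤ, (p : 𝓞 K) ∣ (u : 𝓞 K) - (n : 𝓞 K)) → ∃ v : (𝓞 K)ˣ, u = v ^ p

instance factPrime5 : Fact (Nat.Prime 5) := ⟨by norm_num⟩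
instance factPrime7 : Fact (Nat.Prime 7) := ⟨by norm_num⟩
instance factPrime11 : Fact (Nat.Prime 11) := ⟨by norm_num⟩
instance factPrime13 : Fact (Nat.Prime 13) := ⟨by norm_num⟩

end Fermat.Agent.KummerL
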