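import Mathlib

/-!
# The truncated polynomial ring `𝔽_p[t] / (t ^ (p - 1))`, the reduction map and the Euler derivation

(Used for Kummer's lemma from a finite certificate: logarithmic derivatives modulo `p`.)

`TA p = 𝔽_p[t] / (t ^ (p - 1))`.  There is a ring hom `phi : 𝓞 ℚ(ζ_p) → TA p`, `ζ ↦ 1 + t`
(because `Φ_p(1 + t) = t ^ (p - 1)` in characteristic `p`), and the Euler derivation
`theta = t d/dt` on `TA p`.  The map `u ↦ theta (phi u) / phi u` is a homomorphism from the unit
group to `(TA p, +)` that kills `p`-th powers and units congruent to integers mod `p`.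
If its values on `(p - 1) / 2` units are `𝔽_p`-linearly independent then (Dirichlet: the unit group
has `(p - 1) / 2` generators) every unit killed by it is a `p`-th power: Kummer's lemma.
-/

set_option autoImplicit false

namespace Fermat.Agent.KummerL

open NumberField Polynomial

/-- The truncated polynomial ring `𝔽_p[t] / (t ^ (p - 1))`. -/
abbrev TA (p : ℕ) : Type := AdjoinRoot ((X : (ZMod p)[X]) ^ (p - 1))

/-- The class of the variable `t` in `TA p`. -/
noncomputable def tt (p : ℕ) : TA p := AdjoinRoot.root _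

/-- `tt p` is the class of the polynomial `X`. -/
theorem trunc_tt_eq_mk (p : ℕ) : tt p = AdjoinRoot.mk ((X : (ZMod p)[X]) ^ (p - 1)) X := rfl

/-- Powers of `tt p` are the classes of the monomials `X ^ k`. -/
theorem trunc_tt_pow_eq_mk (p k : ℕ) :
    tt p ^ k = AdjoinRoot.mk ((X : (ZMod p)[X]) ^ (p - 1)) (X ^ k) := by
  rw [trunc_tt_eq_mk, map_pow]

theorem tt_pow_eq_zero (p : ℕ) : tt p ^ (p - 1) = 0 := by
  rw [trunc_tt_pow_eq_mk, AdjoinRoot.mk_self]

/-- The Euler operator `X * d/dX` on a monomial. -/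
theorem trunc_X_mul_derivative_X_pow (R : Type*) [CommRing R] (n : ℕ) :
    (X : R[X]) * derivative (X ^ n) = C (n : R) * X ^ n := by
  rcases n with _ | m
  · simp
  · rw [derivative_X_pow, Nat.add_sub_cancel, pow_succ]
    ring

/-- The Euler derivation `t d/dt` on `TA p`, defined through the remainder modulo `X ^ (p - 1)`. -/
noncomputable def trunc_thetaAux (p : ℕ) : TA p →ₗ[ZMod p] TA p :=
  (AdjoinRoot.mkₐ ((X : (ZMod p)[X]) ^ (p - 1))).toLinearMap ∘ₗ
    LinearMap.mulLeft (ZMod p) (X : (ZMod p)[X]) ∘ₗ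
    (derivative : (ZMod p)[X] →ₗ[ZMod p] (ZMod p)[X]) ∘ₗ
    AdjoinRoot.modByMonicHom (monic_X_pow (p - 1))

theorem trunc_thetaAux_mk (p : ℕ) (f : (ZMod p)[X]) :
    trunc_thetaAux p (AdjoinRoot.mk ((X : (ZMod p)[X]) ^ (p - 1)) f) =
      AdjoinRoot.mk ((X : (ZMod p)[X]) ^ (p - 1)) (X * derivative f) := by
  simp only [trunc_thetaAux, LinearMap.comp_apply, AdjoinRoot.modByMonicHom_mk,
    LinearMap.mulLeft_apply, AlgHom.toLinearMap_apply, AdjoinRoot.coe_mkₐ]
  rw [AdjoinRoot.mk_eq_mk]
  have h := modByMonic_add_div f ((X : (ZMod p)[X]) ^ (p - 1))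
  have hX := trunc_X_mul_derivative_X_pow (ZMod p) (p - 1)
  have h2 : X * derivative f = X * derivative (f %ₘ X ^ (p - 1)) +
      X ^ (p - 1) * (C ((p - 1 : ℕ) : ZMod p) * (f /ₘ X ^ (p - 1)) +
        X * derivative (f /ₘ X ^ (p - 1))) := by
    conv_lhs => rw [← h]
    rw [derivative_add, derivative_mul, mul_add, mul_add, ← mul_assoc, hX]
    ring
  rw [h2]
  exact ⟨-(C ((p - 1 : ℕ) : ZMod p) * (f /ₘ X ^ (p - 1)) +
    X * derivative (f /ₘ X ^ (p - 1))), by ring⟩

variable {p : ℕ} [hp : Fact p.Prime]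

theorem natCast_self_eq_zero_TA : ((p : ℕ) : TA p) = 0 := by
  rw [← map_natCast (algebraMap (ZMod p) (TA p)), ZMod.natCast_self, map_zero]

variable (p) in
theorem exists_theta : ∃ θ : TA p →ₗ[ZMod p] TA p,
    (∀ k : ℕ, θ (tt p ^ k) = (k : ZMod p) • tt p ^ k) ∧
    (∀ x y : TA p, θ (x * y) = θ x * y + x * θ y) := by
  refine ⟨trunc_thetaAux p, ?_, ?_⟩
  · intro k
    rw [trunc_tt_pow_eq_mk, trunc_thetaAux_mk, trunc_X_mul_derivative_X_pow, AdjoinRoot.smul_mk,
      smul_eq_C_mul]
  · intro x y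
    induction x using AdjoinRoot.induction_on with
    | ih a =>
      induction y using AdjoinRoot.induction_on with
      | ih b =>
        rw [← map_mul, trunc_thetaAux_mk, trunc_thetaAux_mk, trunc_thetaAux_mk, ← map_mul,
          ← map_mul, ← map_add, derivative_mul]
        congr 1
        ring

variable (p) in
/-- The Euler derivation `t d/dt` on `TA p`. -/
noncomputable def theta : TA p →ₗ[ZMod p] TA p := (exists_theta p).choose

theorem theta_tt_pow (k : ℕ) : theta p (tt p ^ k) = (k : ZMod p) • tt p ^ k :=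
  (exists_theta p).choose_spec.1 k

theorem theta_mul (x y : TA p) : theta p (x * y) = theta p x * y + x * theta p y :=
  (exists_theta p).choose_spec.2 x y

theorem theta_one : theta p 1 = 0 := by
  simpa using theta_tt_pow (p := p) 0

theorem theta_tt : theta p (tt p) = tt p := by
  simpa using theta_tt_pow (p := p) 1

theorem theta_natCast (n : ℕ) : theta p (n : TA p) = 0 := by
  have h : (n : TA p) = (n : ZMod p) • (1 : TA p) := by
    rw [Algebra.smul_def, mul_one, map_natCast]
  rw [h, map_smul, theta_one, smul_zero]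

theorem theta_intCast (n : ℤ) : theta p (n : TA p) = 0 := by
  have h : (n : TA p) = (n : ZMod p) • (1 : TA p) := by
    rw [Algebra.smul_def, mul_one, map_intCast]
  rw [h, map_smul, theta_one, smul_zero]

theorem theta_pow (x : TA p) (k : ℕ) : theta p (x ^ k) = (k : TA p) * x ^ (k - 1) * theta p x := by
  induction k with
  | zero => simp [theta_one]
  | succ k ih =>
    rw [pow_succ, theta_mul, ih]
    rcases k with _ | m
    · simp
    · simp only [Nat.add_sub_cancel, Nat.cast_add, Nat.cast_one]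
      ring

variable (p) in
theorem exists_coeffT (k : ℕ) : ∃ c : TA p →ₗ[ZMod p] ZMod p,
    ∀ j : ℕ, j < p - 1 → c (tt p ^ j) = if j = k then 1 else 0 := by
  refine ⟨lcoeff (ZMod p) k ∘ₗ AdjoinRoot.modByMonicHom (monic_X_pow (p - 1)), ?_⟩
  intro j hj
  have hdeg : ((X : (ZMod p)[X]) ^ j).degree < ((X : (ZMod p)[X]) ^ (p - 1)).degree := by
    rw [degree_X_pow, degree_X_pow]
    exact_mod_cast hj
  rw [trunc_tt_pow_eq_mk, LinearMap.comp_apply, AdjoinRoot.modByMonicHom_mk, lcoeff_apply,
    (modByMonic_eq_self_iff (monic_X_pow (p - 1))).mpr hdeg, coeff_X_pow]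
  simp only [eq_comm]

variable (p) in
/-- The coefficient of `t ^ k` (for `k < p - 1`). -/
noncomputable def coeffT (k : ℕ) : TA p →ₗ[ZMod p] ZMod p := (exists_coeffT p k).choose

theorem coeffT_tt_pow (k j : ℕ) (hj : j < p - 1) :
    coeffT p k (tt p ^ j) = if j = k then 1 else 0 :=
  (exists_coeffT p k).choose_spec j hj

theorem coeffT_natCast_mul (k : ℕ) (n : ℕ) (x : TA p) :
    coeffT p k ((n : TA p) * x) = (n : ZMod p) * coeffT p k x := by
  have h : (n : TA p) * x = (n : ZMod p) • x := by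
    rw [Algebra.smul_def, map_natCast]
  rw [h, map_smul, smul_eq_mul]

/-- Linear independence in `TA p` from an invertible matrix of selected coefficients. -/
theorem linearIndependent_of_coeffT {n : ℕ} (v : Fin n → TA p) (ks : Fin n → ℕ)
    (N : Matrix (Fin n) (Fin n) (ZMod p))
    (h : (Matrix.of fun i j => coeffT p (ks j) (v i)) * N = 1) :
    LinearIndependent (ZMod p) v := by
  rw [Fintype.linearIndependent_iff]
  intro c hc
  have h1 : Matrix.vecMul c (Matrix.of fun i j => coeffT p (ks j) (v i)) = 0 := by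
    funext j
    have hj := congrArg (coeffT p (ks j)) hc
    simp only [map_sum, map_smul, smul_eq_mul, map_zero] at hj
    simpa [Matrix.vecMul, dotProduct] using hj
  have h2 : c = 0 := by
    rw [← Matrix.vecMul_one c, ← h, ← Matrix.vecMul_vecMul, h1, Matrix.zero_vecMul]
  intro i
  rw [h2]
  rfl

variable {K : Type*} [Field K] [NumberField K] [IsCyclotomicExtension {p} ℚ K] {ζ : K}

/-- In characteristic `p`, the `p`-th cyclotomic polynomial is `(X - 1) ^ (p - 1)`. -/
theorem trunc_cyclotomic_zmod : cyclotomic p (ZMod p) = (X - 1) ^ (p - 1) := by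
  have h := cyclotomic_mul_prime_pow_eq (ZMod p) (p := p) (m := 1) hp.out.not_dvd_one
    (k := 1) one_pos
  simpa [cyclotomic_one] using h

/-- `Φ_p(1 + t) = t ^ (p - 1) = 0` in `TA p`. -/
theorem trunc_aeval_cyclotomic : aeval (1 + tt p) (cyclotomic p ℤ) = 0 := by
  have hmap : algebraMap ℤ (TA p) =
      (algebraMap (ZMod p) (TA p)).comp (Int.castRingHom (ZMod p)) := RingHom.ext_int _ _
  rw [aeval_def, hmap, ← eval₂_map, map_cyclotomic_int, trunc_cyclotomic_zmod, eval₂_pow,
    eval₂_sub, eval₂_X, eval₂_one, add_sub_cancel_left, tt_pow_eq_zero]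

theorem exists_phi (hζ : IsPrimitiveRoot ζ p) :
    ∃ φ : 𝓞 K →+* TA p, φ hζ.toInteger = 1 + tt p := by
  have hcoe : ((hζ.toInteger : 𝓞 K) : K) = ζ := hζ.coe_toInteger
  have hmin : minpoly ℤ hζ.integralPowerBasis.gen = cyclotomic p ℤ := by
    rw [hζ.integralPowerBasis_gen, ← RingOfIntegers.minpoly_coe, hcoe]
    exact (cyclotomic_eq_minpoly hζ hp.out.pos).symm
  have hy : aeval (1 + tt p) (minpoly ℤ hζ.integralPowerBasis.gen) = 0 := by
    rw [hmin, trunc_aeval_cyclotomic]
  refine ⟨(hζ.integralPowerBasis.lift (1 + tt p) hy).toRingHom, ?_⟩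
  have h := hζ.integralPowerBasis.lift_gen (1 + tt p) hy
  rw [hζ.integralPowerBasis_gen] at h
  exact h

/-- The reduction map `𝓞 K → TA p`, `ζ ↦ 1 + t`. -/
noncomputable def phi (hζ : IsPrimitiveRoot ζ p) : 𝓞 K →+* TA p := (exists_phi hζ).choose

theorem phi_zeta (hζ : IsPrimitiveRoot ζ p) : phi hζ hζ.toInteger = 1 + tt p :=
  (exists_phi hζ).choose_spec

end Fermat.Agent.KummerL
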