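import Mathlib

/-!
# The unit group of `𝓞 ℚ(ζ_p)` is generated by `(p - 1) / 2` elements (Dirichlet's unit theorem)
-/

set_option autoImplicit false

namespace Fermat.Agent.KummerL

open NumberField

/-- Auxiliary (Dirichlet's unit theorem, existence part): for any number field `K` there are
`rank K` units such that every unit of `𝓞 K` is a torsion unit times a product of integer powers
of them. -/
theorem unitgen_dirichlet (K : Type*) [Field K] [NumberField K] :
    ∃ f : Fin (NumberField.Units.rank K) → (𝓞 K)ˣ, ∀ x : (𝓞 K)ˣ,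
      ∃ ζe : NumberField.Units.torsion K × (Fin (NumberField.Units.rank K) → ℤ),
        x = ζe.1 * ∏ i, f i ^ ζe.2 i :=
  ⟨_, fun x => (NumberField.Units.exist_unique_eq_mul_prod K x).exists⟩

/-- Auxiliary: for any number field `K`, the unit group of `𝓞 K` is generated by `rank K + 1`
elements (a generator of the cyclic torsion subgroup followed by fundamental units).
The number of generators is abstracted as `n` with `n = rank K + 1` to make transport easy. -/
theorem unitgen_aux (K : Type*) [Field K] [NumberField K] (n : ℕ)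
    (hn : n = NumberField.Units.rank K + 1) :
    ∃ g : Fin n → (𝓞 K)ˣ, ∀ u : (𝓞 K)ˣ, ∃ e : Fin n → ℤ, u = ∏ i, g i ^ e i := by
  subst hn
  obtain ⟨τ, hτ⟩ := IsCyclic.exists_generator (α := NumberField.Units.torsion K)
  obtain ⟨f, hf⟩ := unitgen_dirichlet K
  refine ⟨Fin.cons (τ : (𝓞 K)ˣ) f, fun u => ?_⟩
  obtain ⟨⟨ζ, e⟩, hu⟩ := hf u
  obtain ⟨k, hk⟩ := Subgroup.mem_zpowers_iff.mp (hτ ζ)
  refine ⟨Fin.cons k e, ?_⟩
  rw [Fin.prod_univ_succ]
  simp only [Fin.cons_zero, Fin.cons_succ]
  rw [hu, ← hk]
  simp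

/-- Auxiliary: for an odd prime `p`, the unit rank of the `p`-th cyclotomic field is
`(p - 1) / 2 - 1`, stated in the form `(p - 1) / 2 = rank K + 1`. -/
theorem unitgen_rank {p : ℕ} [Fact p.Prime] (hp2 : p ≠ 2) (K : Type*) [Field K]
    [NumberField K] [IsCyclotomicExtension {p} ℚ K] :
    (p - 1) / 2 = NumberField.Units.rank K + 1 := by
  have hp : p.Prime := Fact.out
  have hp3 : 2 < p := lt_of_le_of_ne hp.two_le (Ne.symm hp2)
  have h1 : NumberField.InfinitePlace.nrRealPlaces K = 0 :=
    IsCyclotomicExtension.Rat.nrRealPlaces_eq_zero (n := p) K hp3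
  have h2 : NumberField.InfinitePlace.nrComplexPlaces K = (p - 1) / 2 := by
    rw [IsCyclotomicExtension.Rat.nrComplexPlaces_eq_totient_div_two p K, Nat.totient_prime hp]
  have h3 : Fintype.card (InfinitePlace K) = (p - 1) / 2 := by
    rw [NumberField.InfinitePlace.card_eq_nrRealPlaces_add_nrComplexPlaces, h1, h2, zero_add]
  have h4 : NumberField.Units.rank K = (p - 1) / 2 - 1 := by
    rw [NumberField.Units.rank, h3]
  rw [h4]
  omega

/-- For an odd prime `p`, the unit group of the ring of integers of the `p`-th cyclotomic field is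
generated by `(p - 1) / 2` elements: a generator of the (cyclic) torsion subgroup together with
`(p - 3) / 2` fundamental units. -/
theorem exists_unit_generators {p : ℕ} [Fact p.Prime] (hp2 : p ≠ 2) (K : Type*) [Field K]
    [NumberField K] [IsCyclotomicExtension {p} ℚ K] :
    ∃ g : Fin ((p - 1) / 2) → (𝓞 K)ˣ,
      ∀ u : (𝓞 K)ˣ, ∃ e : Fin ((p - 1) / 2) → ℤ, u = ∏ i, g i ^ e i := by
  exact unitgen_aux K ((p - 1) / 2) (unitgen_rank hp2 K)

end Fermat.Agent.KummerL
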