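import Mathlib
import Fermat.Agent.KummerL.Defs
import Fermat.Agent.KummerL.UnitGen
import Fermat.Agent.KummerL.Trunc

/-!
# Kummer's lemma from a finite certificate (logarithmic derivatives modulo `p`)

See `Trunc.lean` for `TA p`, `tt p`, `theta p`, `phi hζ`.
The map `u ↦ theta (phi u) / phi u` is a homomorphism from the unit group to `(TA p, +)` that kills
`p`-th powers and units congruent to integers mod `p`.  If its values on `(p - 1) / 2` units are
`𝔽_p`-linearly independent then (Dirichlet: the unit group has `(p - 1) / 2` generators) every unit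
killed by it is a `p`-th power: Kummer's lemma.
-/

set_option autoImplicit false

namespace Fermat.Agent.KummerL

open NumberField Polynomial

variable {p : ℕ} [hp : Fact p.Prime]
variable {K : Type*} [Field K] [NumberField K] [IsCyclotomicExtension {p} ℚ K] {ζ : K}

/-- The logarithmic derivative `w ↦ theta (phi w) / phi w` on the unit group. -/
noncomputable def dlog_fun (hζ : IsPrimitiveRoot ζ p) (w : (𝓞 K)ˣ) : TA p :=
  theta p (phi hζ (w : 𝓞 K)) * phi hζ ((w⁻¹ : (𝓞 K)ˣ) : 𝓞 K)

theorem dlog_phi_mul_inv (hζ : IsPrimitiveRoot ζ p) (w : (𝓞 K)ˣ) :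
    phi hζ (w : 𝓞 K) * phi hζ ((w⁻¹ : (𝓞 K)ˣ) : 𝓞 K) = 1 := by
  rw [← map_mul, ← Units.val_mul, mul_inv_cancel, Units.val_one, map_one]

theorem dlog_fun_mul (hζ : IsPrimitiveRoot ζ p) (w w' : (𝓞 K)ˣ) :
    dlog_fun hζ (w * w') = dlog_fun hζ w + dlog_fun hζ w' := by
  unfold dlog_fun
  have h1 := dlog_phi_mul_inv hζ w
  have h2 := dlog_phi_mul_inv hζ w'
  rw [mul_inv, Units.val_mul, Units.val_mul, map_mul (phi hζ), map_mul (phi hζ), theta_mul]
  linear_combination (theta p (phi hζ (w : 𝓞 K)) * phi hζ ((w⁻¹ : (𝓞 K)ˣ) : 𝓞 K)) * h2 +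
    (theta p (phi hζ (w' : 𝓞 K)) * phi hζ ((w'⁻¹ : (𝓞 K)ˣ) : 𝓞 K)) * h1

/-- The logarithmic derivative as an additive homomorphism out of the unit group. -/
noncomputable def dlog_hom (hζ : IsPrimitiveRoot ζ p) : Additive (𝓞 K)ˣ →+ TA p :=
  AddMonoidHom.mk' (fun w => dlog_fun hζ w.toMul) (fun a b => dlog_fun_mul hζ a.toMul b.toMul)

theorem dlog_hom_apply (hζ : IsPrimitiveRoot ζ p) (w : (𝓞 K)ˣ) :
    dlog_hom hζ (Additive.ofMul w) = dlog_fun hζ w := rfl

/-- The logarithmic derivative of a product of integer powers. -/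
theorem dlog_fun_prod_zpow (hζ : IsPrimitiveRoot ζ p) {n : ℕ} (g : Fin n → (𝓞 K)ˣ)
    (e : Fin n → ℤ) :
    dlog_fun hζ (∏ i, g i ^ e i) = ∑ i, (e i : ZMod p) • dlog_fun hζ (g i) := by
  rw [← dlog_hom_apply, ofMul_prod, map_sum]
  refine Finset.sum_congr rfl fun i _ => ?_
  rw [ofMul_zpow, map_zsmul, dlog_hom_apply, Int.cast_smul_eq_zsmul]

/-- The logarithmic derivative kills units congruent to a rational integer modulo `p`. -/
theorem dlog_fun_eq_zero_of_dvd (hζ : IsPrimitiveRoot ζ p) (w : (𝓞 K)ˣ) (m : ℤ)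
    (hm : (p : 𝓞 K) ∣ (w : 𝓞 K) - (m : 𝓞 K)) : dlog_fun hζ w = 0 := by
  obtain ⟨c, hc⟩ := hm
  have h1 : phi hζ (w : 𝓞 K) = (m : TA p) := by
    have h2 := congrArg (phi hζ) hc
    rw [map_sub, map_mul, map_natCast, map_intCast, natCast_self_eq_zero_TA, zero_mul,
      sub_eq_zero] at h2
    exact h2
  unfold dlog_fun
  rw [h1, theta_intCast, zero_mul]

/-- The logarithmic derivative of a unit with prescribed `theta (phi u) = v * phi u`. -/
theorem dlog_fun_eq_of_theta_eq (hζ : IsPrimitiveRoot ζ p) (w : (𝓞 K)ˣ) (x : TA p)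
    (h : theta p (phi hζ (w : 𝓞 K)) = x * phi hζ (w : 𝓞 K)) : dlog_fun hζ w = x := by
  unfold dlog_fun
  rw [h, mul_assoc, dlog_phi_mul_inv, mul_one]

/-- **Kummer's lemma from a certificate.**  If `u i` (`i < (p - 1) / 2`) are units whose
logarithmic derivatives `v i = theta (phi (u i)) / phi (u i)` are linearly independent over `𝔽_p`,
then every unit congruent to a rational integer mod `p` is a `p`-th power. -/
theorem kummerLemma_of_cert (hp2 : p ≠ 2) (hζ : IsPrimitiveRoot ζ p)
    (u : Fin ((p - 1) / 2) → (𝓞 K)ˣ) (v : Fin ((p - 1) / 2) → TA p)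
    (huv : ∀ i, theta p (phi hζ (u i)) = v i * phi hζ (u i))
    (hv : LinearIndependent (ZMod p) v) : KummerLemmaHolds p K := by
  classical
  obtain ⟨g, hg⟩ := exists_unit_generators hp2 K
  -- the `𝔽_p`-linear map `c ↦ ∑ i, c i • Λ (g i)`
  let L : (Fin ((p - 1) / 2) → ZMod p) →ₗ[ZMod p] TA p :=
    Fintype.linearCombination (ZMod p) (fun i => dlog_fun hζ (g i))
  have hL : ∀ e : Fin ((p - 1) / 2) → ℤ,
      dlog_fun hζ (∏ i, g i ^ e i) = L (fun i => (e i : ZMod p)) := by
    intro e
    rw [dlog_fun_prod_zpow]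
    rfl
  -- the certificate units in terms of the generators
  choose E hE using fun j => hg (u j)
  have hvL : ∀ j, v j = L (fun i => (E j i : ZMod p)) := by
    intro j
    rw [← hL, ← hE j, dlog_fun_eq_of_theta_eq hζ (u j) (v j) (huv j)]
  -- `L` is injective
  have hinj : Function.Injective L := by
    let M : (Fin ((p - 1) / 2) → ZMod p) →ₗ[ZMod p] (Fin ((p - 1) / 2) → ZMod p) :=
      Fintype.linearCombination (ZMod p) (fun j i => (E j i : ZMod p))
    have hLM : ∀ a, L (M a) = Fintype.linearCombination (ZMod p) v a := by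
      intro a
      simp only [M, Fintype.linearCombination_apply, map_sum, map_smul]
      exact Finset.sum_congr rfl fun j _ => by rw [hvL j]
    have hinjLM : Function.Injective (fun a => L (M a)) := by
      have := hv.fintypeLinearCombination_injective
      intro a b hab
      simp only [hLM] at hab
      exact this hab
    have hinjM : Function.Injective M := fun a b hab => hinjLM (by simp only [hab])
    have hsurjM : Function.Surjective M := LinearMap.injective_iff_surjective.1 hinjM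
    intro x y hxy
    obtain ⟨a, rfl⟩ := hsurjM x
    obtain ⟨b, rfl⟩ := hsurjM y
    exact congrArg M (hinjLM hxy)
  -- conclusion
  rintro w ⟨m, hm⟩
  obtain ⟨e, he⟩ := hg w
  have h0 : L (fun i => (e i : ZMod p)) = 0 := by
    rw [← hL, ← he]
    exact dlog_fun_eq_zero_of_dvd hζ w m hm
  have h1 : (fun i => (e i : ZMod p)) = 0 := hinj (by rw [h0, map_zero])
  have h2 : ∀ i, (p : ℤ) ∣ e i := fun i =>
    (ZMod.intCast_zmod_eq_zero_iff_dvd _ _).1 (congrFun h1 i)
  choose e' he' using h2
  refine ⟨∏ i, g i ^ e' i, ?_⟩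
  rw [he, ← Finset.prod_pow]
  refine Finset.prod_congr rfl fun i _ => ?_
  rw [he' i, mul_comm, zpow_mul, zpow_natCast]

end Fermat.Agent.KummerL
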