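import Mathlib
import Fermat.Agent.KummerL.Dlog

/-!
# Kummer's lemma for `p = 11` (explicit certificate)

We apply `kummerLemma_of_cert` to the units `ζ` and `1 + ζ + ⋯ + ζ ^ (a - 1)` for
`2 ≤ a ≤ 5`.  Their images in `TA 11 = 𝔽_11[t] / (t ^ 10)` are `1 + t` and
`F_a = ∑ i < a, (1 + t) ^ i`, and the logarithmic derivatives `v = t F_a' / F_a` are explicit
truncated polynomials; each identity `t F_a' = v F_a` in `TA 11` follows from an identity of
integer polynomials `t F_a' - v F_a = Q t ^ 10 + 11 T`.  Linear independence of the `v`'s is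
checked on the coefficients of `t ^ k`, `k ∈ {1, 2, 4, 6, 8}` (an invertible matrix mod `11`).
(This file was generated by a script; the certificate exists because `11` is a regular prime.)
-/

set_option autoImplicit false

namespace Fermat.Agent.KummerL

open NumberField Finset

section general

variable {p : ℕ} [hp : Fact p.Prime]
variable {K : Type*} [Field K] [NumberField K] [IsCyclotomicExtension {p} ℚ K] {ζ : K}

theorem cert11_theta_one_add_tt : theta p (1 + tt p) = tt p := by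
  rw [map_add, theta_one, theta_tt, zero_add]

theorem cert11_key_zeta (hζ : IsPrimitiveRoot ζ p) (v : TA p) (h : tt p = v * (1 + tt p)) :
    theta p (phi hζ ((hζ.toInteger_isPrimitiveRoot.isUnit hp.out.ne_zero).unit : (𝓞 K)ˣ)) =
      v * phi hζ ((hζ.toInteger_isPrimitiveRoot.isUnit hp.out.ne_zero).unit : (𝓞 K)ˣ) := by
  rw [IsUnit.unit_spec, phi_zeta, cert11_theta_one_add_tt]
  exact h

theorem cert11_key_geom (hζ : IsPrimitiveRoot ζ p) (a : ℕ) (ha : a.Coprime p) (v : TA p)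
    (h : ∑ i ∈ range a, (i : TA p) * (1 + tt p) ^ (i - 1) * tt p =
      v * ∑ i ∈ range a, (1 + tt p) ^ i) :
    theta p (phi hζ
        ((hζ.toInteger_isPrimitiveRoot.geom_sum_isUnit hp.out.two_le ha).unit : (𝓞 K)ˣ)) =
      v * phi hζ
        ((hζ.toInteger_isPrimitiveRoot.geom_sum_isUnit hp.out.two_le ha).unit : (𝓞 K)ˣ) := by
  have h1 : phi hζ (∑ i ∈ range a, hζ.toInteger ^ i) = ∑ i ∈ range a, (1 + tt p) ^ i := by
    rw [map_sum]
    refine Finset.sum_congr rfl fun i _ => ?_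
    rw [map_pow, phi_zeta]
  have h2 : theta p (∑ i ∈ range a, (1 + tt p) ^ i) =
      ∑ i ∈ range a, (i : TA p) * (1 + tt p) ^ (i - 1) * tt p := by
    rw [map_sum]
    refine Finset.sum_congr rfl fun i _ => ?_
    rw [theta_pow, cert11_theta_one_add_tt]
  rw [IsUnit.unit_spec, h1, h2]
  exact h

end general

theorem cert11_tt_pow : tt 11 ^ 10 = 0 := tt_pow_eq_zero 11

theorem cert11_p_eq_zero : (11 : TA 11) = 0 := by
  exact_mod_cast natCast_self_eq_zero_TA (p := 11)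

/-- The logarithmic derivative `t / (1 + t)` of `1 + t` in `TA 11`. -/
noncomputable def cert11_v0 : TA 11 :=
  ((1 : ℕ) : TA 11) * tt 11 ^ 1 + ((10 : ℕ) : TA 11) * tt 11 ^ 2 + ((1 : ℕ) : TA 11) * tt 11 ^ 3
    + ((10 : ℕ) : TA 11) * tt 11 ^ 4 + ((1 : ℕ) : TA 11) * tt 11 ^ 5
    + ((10 : ℕ) : TA 11) * tt 11 ^ 6 + ((1 : ℕ) : TA 11) * tt 11 ^ 7
    + ((10 : ℕ) : TA 11) * tt 11 ^ 8 + ((1 : ℕ) : TA 11) * tt 11 ^ 9

/-- The logarithmic derivative `t F' / F` of `F = ∑ i < 2, (1 + t) ^ i` in `TA 11`. -/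
noncomputable def cert11_v1 : TA 11 :=
  ((6 : ℕ) : TA 11) * tt 11 ^ 1 + ((8 : ℕ) : TA 11) * tt 11 ^ 2 + ((7 : ℕ) : TA 11) * tt 11 ^ 3
    + ((2 : ℕ) : TA 11) * tt 11 ^ 4 + ((10 : ℕ) : TA 11) * tt 11 ^ 5
    + ((6 : ℕ) : TA 11) * tt 11 ^ 6 + ((8 : ℕ) : TA 11) * tt 11 ^ 7
    + ((7 : ℕ) : TA 11) * tt 11 ^ 8 + ((2 : ℕ) : TA 11) * tt 11 ^ 9

/-- The logarithmic derivative `t F' / F` of `F = ∑ i < 3, (1 + t) ^ i` in `TA 11`. -/
noncomputable def cert11_v2 : TA 11 :=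
  ((1 : ℕ) : TA 11) * tt 11 ^ 1 + ((7 : ℕ) : TA 11) * tt 11 ^ 2 + ((0 : ℕ) : TA 11) * tt 11 ^ 3
    + ((5 : ℕ) : TA 11) * tt 11 ^ 4 + ((6 : ℕ) : TA 11) * tt 11 ^ 5
    + ((7 : ℕ) : TA 11) * tt 11 ^ 6 + ((2 : ℕ) : TA 11) * tt 11 ^ 7
    + ((3 : ℕ) : TA 11) * tt 11 ^ 8 + ((0 : ℕ) : TA 11) * tt 11 ^ 9

/-- The logarithmic derivative `t F' / F` of `F = ∑ i < 4, (1 + t) ^ i` in `TA 11`. -/
noncomputable def cert11_v3 : TA 11 :=
  ((7 : ℕ) : TA 11) * tt 11 ^ 1 + ((8 : ℕ) : TA 11) * tt 11 ^ 2 + ((1 : ℕ) : TA 11) * tt 11 ^ 3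
    + ((8 : ℕ) : TA 11) * tt 11 ^ 4 + ((7 : ℕ) : TA 11) * tt 11 ^ 5
    + ((6 : ℕ) : TA 11) * tt 11 ^ 6 + ((4 : ℕ) : TA 11) * tt 11 ^ 7
    + ((0 : ℕ) : TA 11) * tt 11 ^ 8 + ((0 : ℕ) : TA 11) * tt 11 ^ 9

/-- The logarithmic derivative `t F' / F` of `F = ∑ i < 5, (1 + t) ^ i` in `TA 11`. -/
noncomputable def cert11_v4 : TA 11 :=
  ((2 : ℕ) : TA 11) * tt 11 ^ 1 + ((0 : ℕ) : TA 11) * tt 11 ^ 2 + ((10 : ℕ) : TA 11) * tt 11 ^ 3
    + ((3 : ℕ) : TA 11) * tt 11 ^ 4 + ((0 : ℕ) : TA 11) * tt 11 ^ 5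
    + ((6 : ℕ) : TA 11) * tt 11 ^ 6 + ((5 : ℕ) : TA 11) * tt 11 ^ 7
    + ((6 : ℕ) : TA 11) * tt 11 ^ 8 + ((5 : ℕ) : TA 11) * tt 11 ^ 9

theorem cert11_id0 : tt 11 = cert11_v0 * (1 + tt 11) := by
  simp only [cert11_v0]
  push_cast
  linear_combination ((-1 : TA 11)) * cert11_tt_pow +
    ((-1 : TA 11) * tt 11 ^ 2 + (-1 : TA 11) * tt 11 ^ 3 + (-1 : TA 11) * tt 11 ^ 4
      + (-1 : TA 11) * tt 11 ^ 5 + (-1 : TA 11) * tt 11 ^ 6 + (-1 : TA 11) * tt 11 ^ 7
      + (-1 : TA 11) * tt 11 ^ 8 + (-1 : TA 11) * tt 11 ^ 9) * cert11_p_eq_zero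

theorem cert11_id1 : ∑ i ∈ range 2, (i : TA 11) * (1 + tt 11) ^ (i - 1) * tt 11 =
    cert11_v1 * ∑ i ∈ range 2, (1 + tt 11) ^ i := by
  simp only [cert11_v1, Finset.sum_range_succ, Finset.sum_range_zero]
  push_cast
  linear_combination ((-2 : TA 11)) * cert11_tt_pow +
    ((-1 : TA 11) * tt 11 ^ 1 + (-2 : TA 11) * tt 11 ^ 2 + (-2 : TA 11) * tt 11 ^ 3
      + (-1 : TA 11) * tt 11 ^ 4 + (-2 : TA 11) * tt 11 ^ 5 + (-2 : TA 11) * tt 11 ^ 6
      + (-2 : TA 11) * tt 11 ^ 7 + (-2 : TA 11) * tt 11 ^ 8 + (-1 : TA 11) * tt 11 ^ 9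
      ) * cert11_p_eq_zero

theorem cert11_id2 : ∑ i ∈ range 3, (i : TA 11) * (1 + tt 11) ^ (i - 1) * tt 11 =
    cert11_v2 * ∑ i ∈ range 3, (1 + tt 11) ^ i := by
  simp only [cert11_v2, Finset.sum_range_succ, Finset.sum_range_zero]
  push_cast
  linear_combination ((-3 : TA 11)) * cert11_tt_pow +
    ((-2 : TA 11) * tt 11 ^ 2 + (-2 : TA 11) * tt 11 ^ 3 + (-2 : TA 11) * tt 11 ^ 4
      + (-3 : TA 11) * tt 11 ^ 5 + (-4 : TA 11) * tt 11 ^ 6 + (-3 : TA 11) * tt 11 ^ 7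
      + (-2 : TA 11) * tt 11 ^ 8 + (-1 : TA 11) * tt 11 ^ 9) * cert11_p_eq_zero

theorem cert11_id3 : ∑ i ∈ range 4, (i : TA 11) * (1 + tt 11) ^ (i - 1) * tt 11 =
    cert11_v3 * ∑ i ∈ range 4, (1 + tt 11) ^ i := by
  simp only [cert11_v3, Finset.sum_range_succ, Finset.sum_range_zero]
  push_cast
  linear_combination ((-4 : TA 11)) * cert11_tt_pow +
    ((-2 : TA 11) * tt 11 ^ 1 + (-6 : TA 11) * tt 11 ^ 2 + (-7 : TA 11) * tt 11 ^ 3
      + (-7 : TA 11) * tt 11 ^ 4 + (-8 : TA 11) * tt 11 ^ 5 + (-9 : TA 11) * tt 11 ^ 6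
      + (-8 : TA 11) * tt 11 ^ 7 + (-5 : TA 11) * tt 11 ^ 8 + (-2 : TA 11) * tt 11 ^ 9
      ) * cert11_p_eq_zero

theorem cert11_id4 : ∑ i ∈ range 5, (i : TA 11) * (1 + tt 11) ^ (i - 1) * tt 11 =
    cert11_v4 * ∑ i ∈ range 5, (1 + tt 11) ^ i := by
  simp only [cert11_v4, Finset.sum_range_succ, Finset.sum_range_zero]
  push_cast
  linear_combination ((-141 : TA 11) + (-85 : TA 11) * tt 11 ^ 1 + (-31 : TA 11) * tt 11 ^ 2
      + (-5 : TA 11) * tt 11 ^ 3) * cert11_tt_pow +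
    ((-5 : TA 11) * tt 11 ^ 3 + (-11 : TA 11) * tt 11 ^ 4 + (-12 : TA 11) * tt 11 ^ 5
      + (-10 : TA 11) * tt 11 ^ 6 + (-10 : TA 11) * tt 11 ^ 7 + (-13 : TA 11) * tt 11 ^ 8
      + (-15 : TA 11) * tt 11 ^ 9) * cert11_p_eq_zero

theorem cert11_c_0_0 : coeffT 11 1 cert11_v0 = 1 := by
  simp only [cert11_v0, map_add, coeffT_natCast_mul, coeffT_tt_pow, Nat.reduceSub,
    Nat.reduceLT]
  decide

theorem cert11_c_0_1 : coeffT 11 2 cert11_v0 = 10 := by
  simp only [cert11_v0, map_add, coeffT_natCast_mul, coeffT_tt_pow, Nat.reduceSub,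
    Nat.reduceLT]
  decide

theorem cert11_c_0_2 : coeffT 11 4 cert11_v0 = 10 := by
  simp only [cert11_v0, map_add, coeffT_natCast_mul, coeffT_tt_pow, Nat.reduceSub,
    Nat.reduceLT]
  decide

theorem cert11_c_0_3 : coeffT 11 6 cert11_v0 = 10 := by
  simp only [cert11_v0, map_add, coeffT_natCast_mul, coeffT_tt_pow, Nat.reduceSub,
    Nat.reduceLT]
  decide

theorem cert11_c_0_4 : coeffT 11 8 cert11_v0 = 10 := by
  simp only [cert11_v0, map_add, coeffT_natCast_mul, coeffT_tt_pow, Nat.reduceSub,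
    Nat.reduceLT]
  decide

theorem cert11_c_1_0 : coeffT 11 1 cert11_v1 = 6 := by
  simp only [cert11_v1, map_add, coeffT_natCast_mul, coeffT_tt_pow, Nat.reduceSub,
    Nat.reduceLT]
  decide

theorem cert11_c_1_1 : coeffT 11 2 cert11_v1 = 8 := by
  simp only [cert11_v1, map_add, coeffT_natCast_mul, coeffT_tt_pow, Nat.reduceSub,
    Nat.reduceLT]
  decide

theorem cert11_c_1_2 : coeffT 11 4 cert11_v1 = 2 := by
  simp only [cert11_v1, map_add, coeffT_natCast_mul, coeffT_tt_pow, Nat.reduceSub,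
    Nat.reduceLT]
  decide

theorem cert11_c_1_3 : coeffT 11 6 cert11_v1 = 6 := by
  simp only [cert11_v1, map_add, coeffT_natCast_mul, coeffT_tt_pow, Nat.reduceSub,
    Nat.reduceLT]
  decide

theorem cert11_c_1_4 : coeffT 11 8 cert11_v1 = 7 := by
  simp only [cert11_v1, map_add, coeffT_natCast_mul, coeffT_tt_pow, Nat.reduceSub,
    Nat.reduceLT]
  decide

theorem cert11_c_2_0 : coeffT 11 1 cert11_v2 = 1 := by
  simp only [cert11_v2, map_add, coeffT_natCast_mul, coeffT_tt_pow, Nat.reduceSub,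
    Nat.reduceLT]
  decide

theorem cert11_c_2_1 : coeffT 11 2 cert11_v2 = 7 := by
  simp only [cert11_v2, map_add, coeffT_natCast_mul, coeffT_tt_pow, Nat.reduceSub,
    Nat.reduceLT]
  decide

theorem cert11_c_2_2 : coeffT 11 4 cert11_v2 = 5 := by
  simp only [cert11_v2, map_add, coeffT_natCast_mul, coeffT_tt_pow, Nat.reduceSub,
    Nat.reduceLT]
  decide

theorem cert11_c_2_3 : coeffT 11 6 cert11_v2 = 7 := by
  simp only [cert11_v2, map_add, coeffT_natCast_mul, coeffT_tt_pow, Nat.reduceSub,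
    Nat.reduceLT]
  decide

theorem cert11_c_2_4 : coeffT 11 8 cert11_v2 = 3 := by
  simp only [cert11_v2, map_add, coeffT_natCast_mul, coeffT_tt_pow, Nat.reduceSub,
    Nat.reduceLT]
  decide

theorem cert11_c_3_0 : coeffT 11 1 cert11_v3 = 7 := by
  simp only [cert11_v3, map_add, coeffT_natCast_mul, coeffT_tt_pow, Nat.reduceSub,
    Nat.reduceLT]
  decide

theorem cert11_c_3_1 : coeffT 11 2 cert11_v3 = 8 := by
  simp only [cert11_v3, map_add, coeffT_natCast_mul, coeffT_tt_pow, Nat.reduceSub,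
    Nat.reduceLT]
  decide

theorem cert11_c_3_2 : coeffT 11 4 cert11_v3 = 8 := by
  simp only [cert11_v3, map_add, coeffT_natCast_mul, coeffT_tt_pow, Nat.reduceSub,
    Nat.reduceLT]
  decide

theorem cert11_c_3_3 : coeffT 11 6 cert11_v3 = 6 := by
  simp only [cert11_v3, map_add, coeffT_natCast_mul, coeffT_tt_pow, Nat.reduceSub,
    Nat.reduceLT]
  decide

theorem cert11_c_3_4 : coeffT 11 8 cert11_v3 = 0 := by
  simp only [cert11_v3, map_add, coeffT_natCast_mul, coeffT_tt_pow, Nat.reduceSub,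
    Nat.reduceLT]
  decide

theorem cert11_c_4_0 : coeffT 11 1 cert11_v4 = 2 := by
  simp only [cert11_v4, map_add, coeffT_natCast_mul, coeffT_tt_pow, Nat.reduceSub,
    Nat.reduceLT]
  decide

theorem cert11_c_4_1 : coeffT 11 2 cert11_v4 = 0 := by
  simp only [cert11_v4, map_add, coeffT_natCast_mul, coeffT_tt_pow, Nat.reduceSub,
    Nat.reduceLT]
  decide

theorem cert11_c_4_2 : coeffT 11 4 cert11_v4 = 3 := by
  simp only [cert11_v4, map_add, coeffT_natCast_mul, coeffT_tt_pow, Nat.reduceSub,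
    Nat.reduceLT]
  decide

theorem cert11_c_4_3 : coeffT 11 6 cert11_v4 = 6 := by
  simp only [cert11_v4, map_add, coeffT_natCast_mul, coeffT_tt_pow, Nat.reduceSub,
    Nat.reduceLT]
  decide

theorem cert11_c_4_4 : coeffT 11 8 cert11_v4 = 6 := by
  simp only [cert11_v4, map_add, coeffT_natCast_mul, coeffT_tt_pow, Nat.reduceSub,
    Nat.reduceLT]
  decide

/-- The values `v i = t F' / F` of the logarithmic derivative on the chosen units are linearly
independent over `𝔽_11`. -/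
theorem cert11_li : LinearIndependent (ZMod 11)
    (![cert11_v0, cert11_v1, cert11_v2, cert11_v3, cert11_v4] : Fin 5 → TA 11) := by
  refine linearIndependent_of_coeffT _ ![1, 2, 4, 6, 8]
    !![9, 6, 7, 0, 2;
       1, 8, 7, 4, 2;
       9, 0, 1, 3, 1;
       0, 8, 5, 0, 1;
       9, 1, 5, 4, 9] ?_
  have hM : (Matrix.of fun i j => coeffT 11 ((![1, 2, 4, 6, 8] : Fin 5 → ℕ) j)
      ((![cert11_v0, cert11_v1, cert11_v2, cert11_v3, cert11_v4] :
        Fin 5 → TA 11) i)) =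
      (!![1, 10, 10, 10, 10;
          6, 8, 2, 6, 7;
          1, 7, 5, 7, 3;
          7, 8, 8, 6, 0;
          2, 0, 3, 6, 6] : Matrix (Fin 5) (Fin 5) (ZMod 11)) := by
    ext i j
    fin_cases i <;> fin_cases j
    · exact cert11_c_0_0
    · exact cert11_c_0_1
    · exact cert11_c_0_2
    · exact cert11_c_0_3
    · exact cert11_c_0_4
    · exact cert11_c_1_0
    · exact cert11_c_1_1
    · exact cert11_c_1_2
    · exact cert11_c_1_3
    · exact cert11_c_1_4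
    · exact cert11_c_2_0
    · exact cert11_c_2_1
    · exact cert11_c_2_2
    · exact cert11_c_2_3
    · exact cert11_c_2_4
    · exact cert11_c_3_0
    · exact cert11_c_3_1
    · exact cert11_c_3_2
    · exact cert11_c_3_3
    · exact cert11_c_3_4
    · exact cert11_c_4_0
    · exact cert11_c_4_1
    · exact cert11_c_4_2
    · exact cert11_c_4_3
    · exact cert11_c_4_4
  rw [hM]
  decide

/-- **Kummer's lemma** for `p = 11`: a unit of `𝓞 ℚ(ζ_11)` congruent to a rational integer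
modulo `11` is a `11`-th power of a unit. -/
theorem kummerLemma_eleven (K : Type*) [Field K] [NumberField K] [IsCyclotomicExtension {11} ℚ K] :
    KummerLemmaHolds 11 K := by
  have hζ := IsCyclotomicExtension.zeta_spec 11 ℚ K
  have hp : Nat.Prime 11 := Fact.out
  refine kummerLemma_of_cert (p := 11) (by norm_num) hζ
    ![(hζ.toInteger_isPrimitiveRoot.isUnit hp.ne_zero).unit,
      (hζ.toInteger_isPrimitiveRoot.geom_sum_isUnit hp.two_le
        (by norm_num : Nat.Coprime 2 11)).unit,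
      (hζ.toInteger_isPrimitiveRoot.geom_sum_isUnit hp.two_le
        (by norm_num : Nat.Coprime 3 11)).unit,
      (hζ.toInteger_isPrimitiveRoot.geom_sum_isUnit hp.two_le
        (by norm_num : Nat.Coprime 4 11)).unit,
      (hζ.toInteger_isPrimitiveRoot.geom_sum_isUnit hp.two_le
        (by norm_num : Nat.Coprime 5 11)).unit]
    ![cert11_v0, cert11_v1, cert11_v2, cert11_v3, cert11_v4] ?_ cert11_li
  intro i
  fin_cases i
  · exact cert11_key_zeta hζ _ cert11_id0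
  · exact cert11_key_geom hζ 2 (by norm_num) _ cert11_id1
  · exact cert11_key_geom hζ 3 (by norm_num) _ cert11_id2
  · exact cert11_key_geom hζ 4 (by norm_num) _ cert11_id3
  · exact cert11_key_geom hζ 5 (by norm_num) _ cert11_id4

end Fermat.Agent.KummerL
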