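import Mathlib
import Fermat.Agent.KummerL.Dlog

/-!
# Kummer's lemma for `p = 13` (explicit certificate)

We apply `kummerLemma_of_cert` to the units `ζ` and `1 + ζ + ⋯ + ζ ^ (a - 1)` for
`2 ≤ a ≤ 6`.  Their images in `TA 13 = 𝔽_13[t] / (t ^ 12)` are `1 + t` and
`F_a = ∑ i < a, (1 + t) ^ i`, and the logarithmic derivatives `v = t F_a' / F_a` are explicit
truncated polynomials; each identity `t F_a' = v F_a` in `TA 13` follows from an identity of
integer polynomials `t F_a' - v F_a = Q t ^ 12 + 13 T`.  Linear independence of the `v`'s is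
checked on the coefficients of `t ^ k`, `k ∈ {1, 2, 4, 6, 8, 10}` (an invertible matrix mod `13`).
(This file was generated by a script; the certificate exists because `13` is a regular prime.)
-/

set_option autoImplicit false

namespace Fermat.Agent.KummerL

open NumberField Finset

section general

variable {p : ℕ} [hp : Fact p.Prime]
variable {K : Type*} [Field K] [NumberField K] [IsCyclotomicExtension {p} ℚ K] {ζ : K}

theorem cert13_theta_one_add_tt : theta p (1 + tt p) = tt p := by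
  rw [map_add, theta_one, theta_tt, zero_add]

theorem cert13_key_zeta (hζ : IsPrimitiveRoot ζ p) (v : TA p) (h : tt p = v * (1 + tt p)) :
    theta p (phi hζ ((hζ.toInteger_isPrimitiveRoot.isUnit hp.out.ne_zero).unit : (𝓞 K)ˣ)) =
      v * phi hζ ((hζ.toInteger_isPrimitiveRoot.isUnit hp.out.ne_zero).unit : (𝓞 K)ˣ) := by
  rw [IsUnit.unit_spec, phi_zeta, cert13_theta_one_add_tt]
  exact h

theorem cert13_key_geom (hζ : IsPrimitiveRoot ζ p) (a : ℕ) (ha : a.Coprime p) (v : TA p)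
    (h : ∑ i ∈ range a, (i : TA p) * (1 + tt p) ^ (i - 1) * tt p =
      v * ∑ i ∈ range a, (1 + tt p) ^ i) :
    theta p (phi hζ
        ((hζ.toInteger_isPrimitiveRoot.geom_sum_isUnit hp.out.two_le ha).unit : (𝓞 K)ˣ)) =
      v * phi hζ
        ((hζ.toInteger_isPrimitiveRoot.geom_sum_isUnit hp.out.two_le ha).unit : (𝓞 K)ˣ) := by
  have h1 : phi hζ (∑ i ∈ range a, hζ.toInteger ^ i) = ∑ i ∈ range a, (1 + tt p) ^ i := by
    rw [map_sum]
    refine Finset.sum_congr rfl fun i _ => ?_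
    rw [map_pow, phi_zeta]
  have h2 : theta p (∑ i ∈ range a, (1 + tt p) ^ i) =
      ∑ i ∈ range a, (i : TA p) * (1 + tt p) ^ (i - 1) * tt p := by
    rw [map_sum]
    refine Finset.sum_congr rfl fun i _ => ?_
    rw [theta_pow, cert13_theta_one_add_tt]
  rw [IsUnit.unit_spec, h1, h2]
  exact h

end general

theorem cert13_tt_pow : tt 13 ^ 12 = 0 := tt_pow_eq_zero 13

theorem cert13_p_eq_zero : (13 : TA 13) = 0 := by
  exact_mod_cast natCast_self_eq_zero_TA (p := 13)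

/-- The logarithmic derivative `t / (1 + t)` of `1 + t` in `TA 13`. -/
noncomputable def cert13_v0 : TA 13 :=
  ((1 : ℕ) : TA 13) * tt 13 ^ 1 + ((12 : ℕ) : TA 13) * tt 13 ^ 2 + ((1 : ℕ) : TA 13) * tt 13 ^ 3
    + ((12 : ℕ) : TA 13) * tt 13 ^ 4 + ((1 : ℕ) : TA 13) * tt 13 ^ 5
    + ((12 : ℕ) : TA 13) * tt 13 ^ 6 + ((1 : ℕ) : TA 13) * tt 13 ^ 7
    + ((12 : ℕ) : TA 13) * tt 13 ^ 8 + ((1 : ℕ) : TA 13) * tt 13 ^ 9
    + ((12 : ℕ) : TA 13) * tt 13 ^ 10 + ((1 : ℕ) : TA 13) * tt 13 ^ 11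

/-- The logarithmic derivative `t F' / F` of `F = ∑ i < 2, (1 + t) ^ i` in `TA 13`. -/
noncomputable def cert13_v1 : TA 13 :=
  ((7 : ℕ) : TA 13) * tt 13 ^ 1 + ((3 : ℕ) : TA 13) * tt 13 ^ 2 + ((5 : ℕ) : TA 13) * tt 13 ^ 3
    + ((4 : ℕ) : TA 13) * tt 13 ^ 4 + ((11 : ℕ) : TA 13) * tt 13 ^ 5
    + ((1 : ℕ) : TA 13) * tt 13 ^ 6 + ((6 : ℕ) : TA 13) * tt 13 ^ 7
    + ((10 : ℕ) : TA 13) * tt 13 ^ 8 + ((8 : ℕ) : TA 13) * tt 13 ^ 9
    + ((9 : ℕ) : TA 13) * tt 13 ^ 10 + ((2 : ℕ) : TA 13) * tt 13 ^ 11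

/-- The logarithmic derivative `t F' / F` of `F = ∑ i < 3, (1 + t) ^ i` in `TA 13`. -/
noncomputable def cert13_v2 : TA 13 :=
  ((1 : ℕ) : TA 13) * tt 13 ^ 1 + ((4 : ℕ) : TA 13) * tt 13 ^ 2 + ((0 : ℕ) : TA 13) * tt 13 ^ 3
    + ((3 : ℕ) : TA 13) * tt 13 ^ 4 + ((10 : ℕ) : TA 13) * tt 13 ^ 5
    + ((2 : ℕ) : TA 13) * tt 13 ^ 6 + ((12 : ℕ) : TA 13) * tt 13 ^ 7
    + ((9 : ℕ) : TA 13) * tt 13 ^ 8 + ((0 : ℕ) : TA 13) * tt 13 ^ 9
    + ((10 : ℕ) : TA 13) * tt 13 ^ 10 + ((3 : ℕ) : TA 13) * tt 13 ^ 11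

/-- The logarithmic derivative `t F' / F` of `F = ∑ i < 4, (1 + t) ^ i` in `TA 13`. -/
noncomputable def cert13_v3 : TA 13 :=
  ((8 : ℕ) : TA 13) * tt 13 ^ 1 + ((3 : ℕ) : TA 13) * tt 13 ^ 2 + ((11 : ℕ) : TA 13) * tt 13 ^ 3
    + ((11 : ℕ) : TA 13) * tt 13 ^ 4 + ((1 : ℕ) : TA 13) * tt 13 ^ 5
    + ((1 : ℕ) : TA 13) * tt 13 ^ 6 + ((11 : ℕ) : TA 13) * tt 13 ^ 7
    + ((5 : ℕ) : TA 13) * tt 13 ^ 8 + ((4 : ℕ) : TA 13) * tt 13 ^ 9
    + ((9 : ℕ) : TA 13) * tt 13 ^ 10 + ((4 : ℕ) : TA 13) * tt 13 ^ 11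

/-- The logarithmic derivative `t F' / F` of `F = ∑ i < 5, (1 + t) ^ i` in `TA 13`. -/
noncomputable def cert13_v4 : TA 13 :=
  ((2 : ℕ) : TA 13) * tt 13 ^ 1 + ((0 : ℕ) : TA 13) * tt 13 ^ 2 + ((12 : ℕ) : TA 13) * tt 13 ^ 3
    + ((6 : ℕ) : TA 13) * tt 13 ^ 4 + ((0 : ℕ) : TA 13) * tt 13 ^ 5
    + ((2 : ℕ) : TA 13) * tt 13 ^ 6 + ((11 : ℕ) : TA 13) * tt 13 ^ 7
    + ((4 : ℕ) : TA 13) * tt 13 ^ 8 + ((7 : ℕ) : TA 13) * tt 13 ^ 9
    + ((3 : ℕ) : TA 13) * tt 13 ^ 10 + ((5 : ℕ) : TA 13) * tt 13 ^ 11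

/-- The logarithmic derivative `t F' / F` of `F = ∑ i < 6, (1 + t) ^ i` in `TA 13`. -/
noncomputable def cert13_v5 : TA 13 :=
  ((9 : ℕ) : TA 13) * tt 13 ^ 1 + ((8 : ℕ) : TA 13) * tt 13 ^ 2 + ((3 : ℕ) : TA 13) * tt 13 ^ 3
    + ((8 : ℕ) : TA 13) * tt 13 ^ 4 + ((9 : ℕ) : TA 13) * tt 13 ^ 5
    + ((1 : ℕ) : TA 13) * tt 13 ^ 6 + ((6 : ℕ) : TA 13) * tt 13 ^ 7
    + ((7 : ℕ) : TA 13) * tt 13 ^ 8 + ((6 : ℕ) : TA 13) * tt 13 ^ 9
    + ((7 : ℕ) : TA 13) * tt 13 ^ 10 + ((6 : ℕ) : TA 13) * tt 13 ^ 11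

theorem cert13_id0 : tt 13 = cert13_v0 * (1 + tt 13) := by
  simp only [cert13_v0]
  push_cast
  linear_combination ((-1 : TA 13)) * cert13_tt_pow +
    ((-1 : TA 13) * tt 13 ^ 2 + (-1 : TA 13) * tt 13 ^ 3 + (-1 : TA 13) * tt 13 ^ 4
      + (-1 : TA 13) * tt 13 ^ 5 + (-1 : TA 13) * tt 13 ^ 6 + (-1 : TA 13) * tt 13 ^ 7
      + (-1 : TA 13) * tt 13 ^ 8 + (-1 : TA 13) * tt 13 ^ 9 + (-1 : TA 13) * tt 13 ^ 10
      + (-1 : TA 13) * tt 13 ^ 11) * cert13_p_eq_zero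

theorem cert13_id1 : ∑ i ∈ range 2, (i : TA 13) * (1 + tt 13) ^ (i - 1) * tt 13 =
    cert13_v1 * ∑ i ∈ range 2, (1 + tt 13) ^ i := by
  simp only [cert13_v1, Finset.sum_range_succ, Finset.sum_range_zero]
  push_cast
  linear_combination ((-2 : TA 13)) * cert13_tt_pow +
    ((-1 : TA 13) * tt 13 ^ 1 + (-1 : TA 13) * tt 13 ^ 2 + (-1 : TA 13) * tt 13 ^ 3
      + (-1 : TA 13) * tt 13 ^ 4 + (-2 : TA 13) * tt 13 ^ 5 + (-1 : TA 13) * tt 13 ^ 6
      + (-1 : TA 13) * tt 13 ^ 7 + (-2 : TA 13) * tt 13 ^ 8 + (-2 : TA 13) * tt 13 ^ 9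
      + (-2 : TA 13) * tt 13 ^ 10 + (-1 : TA 13) * tt 13 ^ 11) * cert13_p_eq_zero

theorem cert13_id2 : ∑ i ∈ range 3, (i : TA 13) * (1 + tt 13) ^ (i - 1) * tt 13 =
    cert13_v2 * ∑ i ∈ range 3, (1 + tt 13) ^ i := by
  simp only [cert13_v2, Finset.sum_range_succ, Finset.sum_range_zero]
  push_cast
  linear_combination ((-19 : TA 13) + (-3 : TA 13) * tt 13 ^ 1) * cert13_tt_pow +
    ((-1 : TA 13) * tt 13 ^ 2 + (-1 : TA 13) * tt 13 ^ 3 + (-1 : TA 13) * tt 13 ^ 4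
      + (-3 : TA 13) * tt 13 ^ 5 + (-3 : TA 13) * tt 13 ^ 6 + (-4 : TA 13) * tt 13 ^ 7
      + (-5 : TA 13) * tt 13 ^ 8 + (-3 : TA 13) * tt 13 ^ 9 + (-3 : TA 13) * tt 13 ^ 10
      + (-3 : TA 13) * tt 13 ^ 11) * cert13_p_eq_zero

theorem cert13_id3 : ∑ i ∈ range 4, (i : TA 13) * (1 + tt 13) ^ (i - 1) * tt 13 =
    cert13_v3 * ∑ i ∈ range 4, (1 + tt 13) ^ i := by
  simp only [cert13_v3, Finset.sum_range_succ, Finset.sum_range_zero]
  push_cast
  linear_combination ((-64 : TA 13) + (-25 : TA 13) * tt 13 ^ 1 + (-4 : TA 13) * tt 13 ^ 2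
      ) * cert13_tt_pow +
    ((-2 : TA 13) * tt 13 ^ 1 + (-4 : TA 13) * tt 13 ^ 2 + (-7 : TA 13) * tt 13 ^ 3
      + (-10 : TA 13) * tt 13 ^ 4 + (-9 : TA 13) * tt 13 ^ 5 + (-5 : TA 13) * tt 13 ^ 6
      + (-5 : TA 13) * tt 13 ^ 7 + (-7 : TA 13) * tt 13 ^ 8 + (-7 : TA 13) * tt 13 ^ 9
      + (-7 : TA 13) * tt 13 ^ 10 + (-7 : TA 13) * tt 13 ^ 11) * cert13_p_eq_zero

theorem cert13_id4 : ∑ i ∈ range 5, (i : TA 13) * (1 + tt 13) ^ (i - 1) * tt 13 =
    cert13_v4 * ∑ i ∈ range 5, (1 + tt 13) ^ i := by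
  simp only [cert13_v4, Finset.sum_range_succ, Finset.sum_range_zero]
  push_cast
  linear_combination ((-119 : TA 13) + (-72 : TA 13) * tt 13 ^ 1 + (-28 : TA 13) * tt 13 ^ 2
      + (-5 : TA 13) * tt 13 ^ 3) * cert13_tt_pow +
    ((-5 : TA 13) * tt 13 ^ 3 + (-12 : TA 13) * tt 13 ^ 4 + (-14 : TA 13) * tt 13 ^ 5
      + (-10 : TA 13) * tt 13 ^ 6 + (-9 : TA 13) * tt 13 ^ 7 + (-12 : TA 13) * tt 13 ^ 8
      + (-15 : TA 13) * tt 13 ^ 9 + (-14 : TA 13) * tt 13 ^ 10 + (-12 : TA 13) * tt 13 ^ 11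
      ) * cert13_p_eq_zero

theorem cert13_id5 : ∑ i ∈ range 6, (i : TA 13) * (1 + tt 13) ^ (i - 1) * tt 13 =
    cert13_v5 * ∑ i ∈ range 6, (1 + tt 13) ^ i := by
  simp only [cert13_v5, Finset.sum_range_succ, Finset.sum_range_zero]
  push_cast
  linear_combination ((-368 : TA 13) + (-268 : TA 13) * tt 13 ^ 1 + (-138 : TA 13) * tt 13 ^ 2
      + (-43 : TA 13) * tt 13 ^ 3 + (-6 : TA 13) * tt 13 ^ 4) * cert13_tt_pow +
    ((-3 : TA 13) * tt 13 ^ 1 + (-11 : TA 13) * tt 13 ^ 2 + (-21 : TA 13) * tt 13 ^ 3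
      + (-28 : TA 13) * tt 13 ^ 4 + (-31 : TA 13) * tt 13 ^ 5 + (-31 : TA 13) * tt 13 ^ 6
      + (-29 : TA 13) * tt 13 ^ 7 + (-26 : TA 13) * tt 13 ^ 8 + (-26 : TA 13) * tt 13 ^ 9
      + (-29 : TA 13) * tt 13 ^ 10 + (-31 : TA 13) * tt 13 ^ 11) * cert13_p_eq_zero

theorem cert13_c_0_0 : coeffT 13 1 cert13_v0 = 1 := by
  simp only [cert13_v0, map_add, coeffT_natCast_mul, coeffT_tt_pow, Nat.reduceSub,
    Nat.reduceLT]
  decide

theorem cert13_c_0_1 : coeffT 13 2 cert13_v0 = 12 := by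
  simp only [cert13_v0, map_add, coeffT_natCast_mul, coeffT_tt_pow, Nat.reduceSub,
    Nat.reduceLT]
  decide

theorem cert13_c_0_2 : coeffT 13 4 cert13_v0 = 12 := by
  simp only [cert13_v0, map_add, coeffT_natCast_mul, coeffT_tt_pow, Nat.reduceSub,
    Nat.reduceLT]
  decide

theorem cert13_c_0_3 : coeffT 13 6 cert13_v0 = 12 := by
  simp only [cert13_v0, map_add, coeffT_natCast_mul, coeffT_tt_pow, Nat.reduceSub,
    Nat.reduceLT]
  decide

theorem cert13_c_0_4 : coeffT 13 8 cert13_v0 = 12 := by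
  simp only [cert13_v0, map_add, coeffT_natCast_mul, coeffT_tt_pow, Nat.reduceSub,
    Nat.reduceLT]
  decide

theorem cert13_c_0_5 : coeffT 13 10 cert13_v0 = 12 := by
  simp only [cert13_v0, map_add, coeffT_natCast_mul, coeffT_tt_pow, Nat.reduceSub,
    Nat.reduceLT]
  decide

theorem cert13_c_1_0 : coeffT 13 1 cert13_v1 = 7 := by
  simp only [cert13_v1, map_add, coeffT_natCast_mul, coeffT_tt_pow, Nat.reduceSub,
    Nat.reduceLT]
  decide

theorem cert13_c_1_1 : coeffT 13 2 cert13_v1 = 3 := by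
  simp only [cert13_v1, map_add, coeffT_natCast_mul, coeffT_tt_pow, Nat.reduceSub,
    Nat.reduceLT]
  decide

theorem cert13_c_1_2 : coeffT 13 4 cert13_v1 = 4 := by
  simp only [cert13_v1, map_add, coeffT_natCast_mul, coeffT_tt_pow, Nat.reduceSub,
    Nat.reduceLT]
  decide

theorem cert13_c_1_3 : coeffT 13 6 cert13_v1 = 1 := by
  simp only [cert13_v1, map_add, coeffT_natCast_mul, coeffT_tt_pow, Nat.reduceSub,
    Nat.reduceLT]
  decide

theorem cert13_c_1_4 : coeffT 13 8 cert13_v1 = 10 := by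
  simp only [cert13_v1, map_add, coeffT_natCast_mul, coeffT_tt_pow, Nat.reduceSub,
    Nat.reduceLT]
  decide

theorem cert13_c_1_5 : coeffT 13 10 cert13_v1 = 9 := by
  simp only [cert13_v1, map_add, coeffT_natCast_mul, coeffT_tt_pow, Nat.reduceSub,
    Nat.reduceLT]
  decide

theorem cert13_c_2_0 : coeffT 13 1 cert13_v2 = 1 := by
  simp only [cert13_v2, map_add, coeffT_natCast_mul, coeffT_tt_pow, Nat.reduceSub,
    Nat.reduceLT]
  decide

theorem cert13_c_2_1 : coeffT 13 2 cert13_v2 = 4 := by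
  simp only [cert13_v2, map_add, coeffT_natCast_mul, coeffT_tt_pow, Nat.reduceSub,
    Nat.reduceLT]
  decide

theorem cert13_c_2_2 : coeffT 13 4 cert13_v2 = 3 := by
  simp only [cert13_v2, map_add, coeffT_natCast_mul, coeffT_tt_pow, Nat.reduceSub,
    Nat.reduceLT]
  decide

theorem cert13_c_2_3 : coeffT 13 6 cert13_v2 = 2 := by
  simp only [cert13_v2, map_add, coeffT_natCast_mul, coeffT_tt_pow, Nat.reduceSub,
    Nat.reduceLT]
  decide

theorem cert13_c_2_4 : coeffT 13 8 cert13_v2 = 9 := by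
  simp only [cert13_v2, map_add, coeffT_natCast_mul, coeffT_tt_pow, Nat.reduceSub,
    Nat.reduceLT]
  decide

theorem cert13_c_2_5 : coeffT 13 10 cert13_v2 = 10 := by
  simp only [cert13_v2, map_add, coeffT_natCast_mul, coeffT_tt_pow, Nat.reduceSub,
    Nat.reduceLT]
  decide

theorem cert13_c_3_0 : coeffT 13 1 cert13_v3 = 8 := by
  simp only [cert13_v3, map_add, coeffT_natCast_mul, coeffT_tt_pow, Nat.reduceSub,
    Nat.reduceLT]
  decide

theorem cert13_c_3_1 : coeffT 13 2 cert13_v3 = 3 := by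
  simp only [cert13_v3, map_add, coeffT_natCast_mul, coeffT_tt_pow, Nat.reduceSub,
    Nat.reduceLT]
  decide

theorem cert13_c_3_2 : coeffT 13 4 cert13_v3 = 11 := by
  simp only [cert13_v3, map_add, coeffT_natCast_mul, coeffT_tt_pow, Nat.reduceSub,
    Nat.reduceLT]
  decide

theorem cert13_c_3_3 : coeffT 13 6 cert13_v3 = 1 := by
  simp only [cert13_v3, map_add, coeffT_natCast_mul, coeffT_tt_pow, Nat.reduceSub,
    Nat.reduceLT]
  decide

theorem cert13_c_3_4 : coeffT 13 8 cert13_v3 = 5 := by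
  simp only [cert13_v3, map_add, coeffT_natCast_mul, coeffT_tt_pow, Nat.reduceSub,
    Nat.reduceLT]
  decide

theorem cert13_c_3_5 : coeffT 13 10 cert13_v3 = 9 := by
  simp only [cert13_v3, map_add, coeffT_natCast_mul, coeffT_tt_pow, Nat.reduceSub,
    Nat.reduceLT]
  decide

theorem cert13_c_4_0 : coeffT 13 1 cert13_v4 = 2 := by
  simp only [cert13_v4, map_add, coeffT_natCast_mul, coeffT_tt_pow, Nat.reduceSub,
    Nat.reduceLT]
  decide

theorem cert13_c_4_1 : coeffT 13 2 cert13_v4 = 0 := by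
  simp only [cert13_v4, map_add, coeffT_natCast_mul, coeffT_tt_pow, Nat.reduceSub,
    Nat.reduceLT]
  decide

theorem cert13_c_4_2 : coeffT 13 4 cert13_v4 = 6 := by
  simp only [cert13_v4, map_add, coeffT_natCast_mul, coeffT_tt_pow, Nat.reduceSub,
    Nat.reduceLT]
  decide

theorem cert13_c_4_3 : coeffT 13 6 cert13_v4 = 2 := by
  simp only [cert13_v4, map_add, coeffT_natCast_mul, coeffT_tt_pow, Nat.reduceSub,
    Nat.reduceLT]
  decide

theorem cert13_c_4_4 : coeffT 13 8 cert13_v4 = 4 := by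
  simp only [cert13_v4, map_add, coeffT_natCast_mul, coeffT_tt_pow, Nat.reduceSub,
    Nat.reduceLT]
  decide

theorem cert13_c_4_5 : coeffT 13 10 cert13_v4 = 3 := by
  simp only [cert13_v4, map_add, coeffT_natCast_mul, coeffT_tt_pow, Nat.reduceSub,
    Nat.reduceLT]
  decide

theorem cert13_c_5_0 : coeffT 13 1 cert13_v5 = 9 := by
  simp only [cert13_v5, map_add, coeffT_natCast_mul, coeffT_tt_pow, Nat.reduceSub,
    Nat.reduceLT]
  decide

theorem cert13_c_5_1 : coeffT 13 2 cert13_v5 = 8 := by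
  simp only [cert13_v5, map_add, coeffT_natCast_mul, coeffT_tt_pow, Nat.reduceSub,
    Nat.reduceLT]
  decide

theorem cert13_c_5_2 : coeffT 13 4 cert13_v5 = 8 := by
  simp only [cert13_v5, map_add, coeffT_natCast_mul, coeffT_tt_pow, Nat.reduceSub,
    Nat.reduceLT]
  decide

theorem cert13_c_5_3 : coeffT 13 6 cert13_v5 = 1 := by
  simp only [cert13_v5, map_add, coeffT_natCast_mul, coeffT_tt_pow, Nat.reduceSub,
    Nat.reduceLT]
  decide

theorem cert13_c_5_4 : coeffT 13 8 cert13_v5 = 7 := by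
  simp only [cert13_v5, map_add, coeffT_natCast_mul, coeffT_tt_pow, Nat.reduceSub,
    Nat.reduceLT]
  decide

theorem cert13_c_5_5 : coeffT 13 10 cert13_v5 = 7 := by
  simp only [cert13_v5, map_add, coeffT_natCast_mul, coeffT_tt_pow, Nat.reduceSub,
    Nat.reduceLT]
  decide

/-- The values `v i = t F' / F` of the logarithmic derivative on the chosen units are linearly
independent over `𝔽_13`. -/
theorem cert13_li : LinearIndependent (ZMod 13)
    (![cert13_v0, cert13_v1, cert13_v2, cert13_v3, cert13_v4, cert13_v5] : Fin 6 → TA 13) := by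
  refine linearIndependent_of_coeffT _ ![1, 2, 4, 6, 8, 10]
    !![1, 10, 12, 7, 4, 4;
       3, 2, 12, 11, 2, 1;
       3, 10, 2, 9, 2, 2;
       9, 7, 4, 9, 7, 11;
       7, 11, 0, 6, 1, 1;
       4, 6, 7, 11, 5, 2] ?_
  have hM : (Matrix.of fun i j => coeffT 13 ((![1, 2, 4, 6, 8, 10] : Fin 6 → ℕ) j)
      ((![cert13_v0, cert13_v1, cert13_v2, cert13_v3, cert13_v4, cert13_v5] :
        Fin 6 → TA 13) i)) =
      (!![1, 12, 12, 12, 12, 12;
          7, 3, 4, 1, 10, 9;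
          1, 4, 3, 2, 9, 10;
          8, 3, 11, 1, 5, 9;
          2, 0, 6, 2, 4, 3;
          9, 8, 8, 1, 7, 7] : Matrix (Fin 6) (Fin 6) (ZMod 13)) := by
    ext i j
    fin_cases i <;> fin_cases j
    · exact cert13_c_0_0
    · exact cert13_c_0_1
    · exact cert13_c_0_2
    · exact cert13_c_0_3
    · exact cert13_c_0_4
    · exact cert13_c_0_5
    · exact cert13_c_1_0
    · exact cert13_c_1_1
    · exact cert13_c_1_2
    · exact cert13_c_1_3
    · exact cert13_c_1_4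
    · exact cert13_c_1_5
    · exact cert13_c_2_0
    · exact cert13_c_2_1
    · exact cert13_c_2_2
    · exact cert13_c_2_3
    · exact cert13_c_2_4
    · exact cert13_c_2_5
    · exact cert13_c_3_0
    · exact cert13_c_3_1
    · exact cert13_c_3_2
    · exact cert13_c_3_3
    · exact cert13_c_3_4
    · exact cert13_c_3_5
    · exact cert13_c_4_0
    · exact cert13_c_4_1
    · exact cert13_c_4_2
    · exact cert13_c_4_3
    · exact cert13_c_4_4
    · exact cert13_c_4_5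
    · exact cert13_c_5_0
    · exact cert13_c_5_1
    · exact cert13_c_5_2
    · exact cert13_c_5_3
    · exact cert13_c_5_4
    · exact cert13_c_5_5
  rw [hM]
  decide

/-- **Kummer's lemma** for `p = 13`: a unit of `𝓞 ℚ(ζ_13)` congruent to a rational integer
modulo `13` is a `13`-th power of a unit. -/
theorem kummerLemma_thirteen (K : Type*) [Field K] [NumberField K] [IsCyclotomicExtension {13} ℚ K] :
    KummerLemmaHolds 13 K := by
  have hζ := IsCyclotomicExtension.zeta_spec 13 ℚ K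
  have hp : Nat.Prime 13 := Fact.out
  refine kummerLemma_of_cert (p := 13) (by norm_num) hζ
    ![(hζ.toInteger_isPrimitiveRoot.isUnit hp.ne_zero).unit,
      (hζ.toInteger_isPrimitiveRoot.geom_sum_isUnit hp.two_le
        (by norm_num : Nat.Coprime 2 13)).unit,
      (hζ.toInteger_isPrimitiveRoot.geom_sum_isUnit hp.two_le
        (by norm_num : Nat.Coprime 3 13)).unit,
      (hζ.toInteger_isPrimitiveRoot.geom_sum_isUnit hp.two_le
        (by norm_num : Nat.Coprime 4 13)).unit,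
      (hζ.toInteger_isPrimitiveRoot.geom_sum_isUnit hp.two_le
        (by norm_num : Nat.Coprime 5 13)).unit,
      (hζ.toInteger_isPrimitiveRoot.geom_sum_isUnit hp.two_le
        (by norm_num : Nat.Coprime 6 13)).unit]
    ![cert13_v0, cert13_v1, cert13_v2, cert13_v3, cert13_v4, cert13_v5] ?_ cert13_li
  intro i
  fin_cases i
  · exact cert13_key_zeta hζ _ cert13_id0
  · exact cert13_key_geom hζ 2 (by norm_num) _ cert13_id1
  · exact cert13_key_geom hζ 3 (by norm_num) _ cert13_id2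
  · exact cert13_key_geom hζ 4 (by norm_num) _ cert13_id3
  · exact cert13_key_geom hζ 5 (by norm_num) _ cert13_id4
  · exact cert13_key_geom hζ 6 (by norm_num) _ cert13_id5

end Fermat.Agent.KummerL
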