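import Mathlib
import Fermat.Agent.KummerL.Dlog

/-!
# Kummer's lemma for `p = 5` (explicit certificate)

We apply `kummerLemma_of_cert` to the units `ζ` and `1 + ζ + ⋯ + ζ ^ (a - 1)` for
`2 ≤ a ≤ 2`.  Their images in `TA 5 = 𝔽_5[t] / (t ^ 4)` are `1 + t` and
`F_a = ∑ i < a, (1 + t) ^ i`, and the logarithmic derivatives `v = t F_a' / F_a` are explicit
truncated polynomials; each identity `t F_a' = v F_a` in `TA 5` follows from an identity of
integer polynomials `t F_a' - v F_a = Q t ^ 4 + 5 T`.  Linear independence of the `v`'s is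
checked on the coefficients of `t ^ k`, `k ∈ {1, 2}` (an invertible matrix mod `5`).
(This file was generated by a script; the certificate exists because `5` is a regular prime.)
-/

set_option autoImplicit false

namespace Fermat.Agent.KummerL

open NumberField Finset

section general

variable {p : ℕ} [hp : Fact p.Prime]
variable {K : Type*} [Field K] [NumberField K] [IsCyclotomicExtension {p} ℚ K] {ζ : K}

theorem cert5_theta_one_add_tt : theta p (1 + tt p) = tt p := by
  rw [map_add, theta_one, theta_tt, zero_add]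

theorem cert5_key_zeta (hζ : IsPrimitiveRoot ζ p) (v : TA p) (h : tt p = v * (1 + tt p)) :
    theta p (phi hζ ((hζ.toInteger_isPrimitiveRoot.isUnit hp.out.ne_zero).unit : (𝓞 K)ˣ)) =
      v * phi hζ ((hζ.toInteger_isPrimitiveRoot.isUnit hp.out.ne_zero).unit : (𝓞 K)ˣ) := by
  rw [IsUnit.unit_spec, phi_zeta, cert5_theta_one_add_tt]
  exact h

theorem cert5_key_geom (hζ : IsPrimitiveRoot ζ p) (a : ℕ) (ha : a.Coprime p) (v : TA p)
    (h : ∑ i ∈ range a, (i : TA p) * (1 + tt p) ^ (i - 1) * tt p =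
      v * ∑ i ∈ range a, (1 + tt p) ^ i) :
    theta p (phi hζ
        ((hζ.toInteger_isPrimitiveRoot.geom_sum_isUnit hp.out.two_le ha).unit : (𝓞 K)ˣ)) =
      v * phi hζ
        ((hζ.toInteger_isPrimitiveRoot.geom_sum_isUnit hp.out.two_le ha).unit : (𝓞 K)ˣ) := by
  have h1 : phi hζ (∑ i ∈ range a, hζ.toInteger ^ i) = ∑ i ∈ range a, (1 + tt p) ^ i := by
    rw [map_sum]
    refine Finset.sum_congr rfl fun i _ => ?_
    rw [map_pow, phi_zeta]
  have h2 : theta p (∑ i ∈ range a, (1 + tt p) ^ i) =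
      ∑ i ∈ range a, (i : TA p) * (1 + tt p) ^ (i - 1) * tt p := by
    rw [map_sum]
    refine Finset.sum_congr rfl fun i _ => ?_
    rw [theta_pow, cert5_theta_one_add_tt]
  rw [IsUnit.unit_spec, h1, h2]
  exact h

end general

theorem cert5_tt_pow : tt 5 ^ 4 = 0 := tt_pow_eq_zero 5

theorem cert5_p_eq_zero : (5 : TA 5) = 0 := by
  exact_mod_cast natCast_self_eq_zero_TA (p := 5)

/-- The logarithmic derivative `t / (1 + t)` of `1 + t` in `TA 5`. -/
noncomputable def cert5_v0 : TA 5 :=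
  ((1 : ℕ) : TA 5) * tt 5 ^ 1 + ((4 : ℕ) : TA 5) * tt 5 ^ 2 + ((1 : ℕ) : TA 5) * tt 5 ^ 3

/-- The logarithmic derivative `t F' / F` of `F = ∑ i < 2, (1 + t) ^ i` in `TA 5`. -/
noncomputable def cert5_v1 : TA 5 :=
  ((3 : ℕ) : TA 5) * tt 5 ^ 1 + ((1 : ℕ) : TA 5) * tt 5 ^ 2 + ((2 : ℕ) : TA 5) * tt 5 ^ 3

theorem cert5_id0 : tt 5 = cert5_v0 * (1 + tt 5) := by
  simp only [cert5_v0]
  push_cast
  linear_combination ((-1 : TA 5)) * cert5_tt_pow +
    ((-1 : TA 5) * tt 5 ^ 2 + (-1 : TA 5) * tt 5 ^ 3) * cert5_p_eq_zero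

theorem cert5_id1 : ∑ i ∈ range 2, (i : TA 5) * (1 + tt 5) ^ (i - 1) * tt 5 =
    cert5_v1 * ∑ i ∈ range 2, (1 + tt 5) ^ i := by
  simp only [cert5_v1, Finset.sum_range_succ, Finset.sum_range_zero]
  push_cast
  linear_combination ((-2 : TA 5)) * cert5_tt_pow +
    ((-1 : TA 5) * tt 5 ^ 1 + (-1 : TA 5) * tt 5 ^ 2 + (-1 : TA 5) * tt 5 ^ 3) * cert5_p_eq_zero

theorem cert5_c_0_0 : coeffT 5 1 cert5_v0 = 1 := by
  simp only [cert5_v0, map_add, coeffT_natCast_mul, coeffT_tt_pow, Nat.reduceSub,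
    Nat.reduceLT]
  decide

theorem cert5_c_0_1 : coeffT 5 2 cert5_v0 = 4 := by
  simp only [cert5_v0, map_add, coeffT_natCast_mul, coeffT_tt_pow, Nat.reduceSub,
    Nat.reduceLT]
  decide

theorem cert5_c_1_0 : coeffT 5 1 cert5_v1 = 3 := by
  simp only [cert5_v1, map_add, coeffT_natCast_mul, coeffT_tt_pow, Nat.reduceSub,
    Nat.reduceLT]
  decide

theorem cert5_c_1_1 : coeffT 5 2 cert5_v1 = 1 := by
  simp only [cert5_v1, map_add, coeffT_natCast_mul, coeffT_tt_pow, Nat.reduceSub,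
    Nat.reduceLT]
  decide

/-- The values `v i = t F' / F` of the logarithmic derivative on the chosen units are linearly
independent over `𝔽_5`. -/
theorem cert5_li : LinearIndependent (ZMod 5)
    (![cert5_v0, cert5_v1] : Fin 2 → TA 5) := by
  refine linearIndependent_of_coeffT _ ![1, 2]
    !![4, 4;
       3, 4] ?_
  have hM : (Matrix.of fun i j => coeffT 5 ((![1, 2] : Fin 2 → ℕ) j)
      ((![cert5_v0, cert5_v1] :
        Fin 2 → TA 5) i)) =
      (!![1, 4;
          3, 1] : Matrix (Fin 2) (Fin 2) (ZMod 5)) := by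
    ext i j
    fin_cases i <;> fin_cases j
    · exact cert5_c_0_0
    · exact cert5_c_0_1
    · exact cert5_c_1_0
    · exact cert5_c_1_1
  rw [hM]
  decide

/-- **Kummer's lemma** for `p = 5`: a unit of `𝓞 ℚ(ζ_5)` congruent to a rational integer
modulo `5` is a `5`-th power of a unit. -/
theorem kummerLemma_five (K : Type*) [Field K] [NumberField K] [IsCyclotomicExtension {5} ℚ K] :
    KummerLemmaHolds 5 K := by
  have hζ := IsCyclotomicExtension.zeta_spec 5 ℚ K
  have hp : Nat.Prime 5 := Fact.out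
  refine kummerLemma_of_cert (p := 5) (by norm_num) hζ
    ![(hζ.toInteger_isPrimitiveRoot.isUnit hp.ne_zero).unit,
      (hζ.toInteger_isPrimitiveRoot.geom_sum_isUnit hp.two_le
        (by norm_num : Nat.Coprime 2 5)).unit]
    ![cert5_v0, cert5_v1] ?_ cert5_li
  intro i
  fin_cases i
  · exact cert5_key_zeta hζ _ cert5_id0
  · exact cert5_key_geom hζ 2 (by norm_num) _ cert5_id1

end Fermat.Agent.KummerL
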