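import Mathlib
import Fermat.Agent.KummerL.Dlog

/-!
# Kummer's lemma for `p = 7` (explicit certificate)

We apply `kummerLemma_of_cert` to the units `ζ` and `1 + ζ + ⋯ + ζ ^ (a - 1)` for
`2 ≤ a ≤ 3`.  Their images in `TA 7 = 𝔽_7[t] / (t ^ 6)` are `1 + t` and
`F_a = ∑ i < a, (1 + t) ^ i`, and the logarithmic derivatives `v = t F_a' / F_a` are explicit
truncated polynomials; each identity `t F_a' = v F_a` in `TA 7` follows from an identity of
integer polynomials `t F_a' - v F_a = Q t ^ 6 + 7 T`.  Linear independence of the `v`'s is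
checked on the coefficients of `t ^ k`, `k ∈ {1, 2, 4}` (an invertible matrix mod `7`).
(This file was generated by a script; the certificate exists because `7` is a regular prime.)
-/

set_option autoImplicit false

namespace Fermat.Agent.KummerL

open NumberField Finset

section general

variable {p : ℕ} [hp : Fact p.Prime]
variable {K : Type*} [Field K] [NumberField K] [IsCyclotomicExtension {p} ℚ K] {ζ : K}

theorem cert7_theta_one_add_tt : theta p (1 + tt p) = tt p := by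
  rw [map_add, theta_one, theta_tt, zero_add]

theorem cert7_key_zeta (hζ : IsPrimitiveRoot ζ p) (v : TA p) (h : tt p = v * (1 + tt p)) :
    theta p (phi hζ ((hζ.toInteger_isPrimitiveRoot.isUnit hp.out.ne_zero).unit : (𝓞 K)ˣ)) =
      v * phi hζ ((hζ.toInteger_isPrimitiveRoot.isUnit hp.out.ne_zero).unit : (𝓞 K)ˣ) := by
  rw [IsUnit.unit_spec, phi_zeta, cert7_theta_one_add_tt]
  exact h

theorem cert7_key_geom (hζ : IsPrimitiveRoot ζ p) (a : ℕ) (ha : a.Coprime p) (v : TA p)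
    (h : ∑ i ∈ range a, (i : TA p) * (1 + tt p) ^ (i - 1) * tt p =
      v * ∑ i ∈ range a, (1 + tt p) ^ i) :
    theta p (phi hζ
        ((hζ.toInteger_isPrimitiveRoot.geom_sum_isUnit hp.out.two_le ha).unit : (𝓞 K)ˣ)) =
      v * phi hζ
        ((hζ.toInteger_isPrimitiveRoot.geom_sum_isUnit hp.out.two_le ha).unit : (𝓞 K)ˣ) := by
  have h1 : phi hζ (∑ i ∈ range a, hζ.toInteger ^ i) = ∑ i ∈ range a, (1 + tt p) ^ i := by
    rw [map_sum]
    refine Finset.sum_congr rfl fun i _ => ?_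
    rw [map_pow, phi_zeta]
  have h2 : theta p (∑ i ∈ range a, (1 + tt p) ^ i) =
      ∑ i ∈ range a, (i : TA p) * (1 + tt p) ^ (i - 1) * tt p := by
    rw [map_sum]
    refine Finset.sum_congr rfl fun i _ => ?_
    rw [theta_pow, cert7_theta_one_add_tt]
  rw [IsUnit.unit_spec, h1, h2]
  exact h

end general

theorem cert7_tt_pow : tt 7 ^ 6 = 0 := tt_pow_eq_zero 7

theorem cert7_p_eq_zero : (7 : TA 7) = 0 := by
  exact_mod_cast natCast_self_eq_zero_TA (p := 7)

/-- The logarithmic derivative `t / (1 + t)` of `1 + t` in `TA 7`. -/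
noncomputable def cert7_v0 : TA 7 :=
  ((1 : ℕ) : TA 7) * tt 7 ^ 1 + ((6 : ℕ) : TA 7) * tt 7 ^ 2 + ((1 : ℕ) : TA 7) * tt 7 ^ 3
    + ((6 : ℕ) : TA 7) * tt 7 ^ 4 + ((1 : ℕ) : TA 7) * tt 7 ^ 5

/-- The logarithmic derivative `t F' / F` of `F = ∑ i < 2, (1 + t) ^ i` in `TA 7`. -/
noncomputable def cert7_v1 : TA 7 :=
  ((4 : ℕ) : TA 7) * tt 7 ^ 1 + ((5 : ℕ) : TA 7) * tt 7 ^ 2 + ((1 : ℕ) : TA 7) * tt 7 ^ 3
    + ((3 : ℕ) : TA 7) * tt 7 ^ 4 + ((2 : ℕ) : TA 7) * tt 7 ^ 5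

/-- The logarithmic derivative `t F' / F` of `F = ∑ i < 3, (1 + t) ^ i` in `TA 7`. -/
noncomputable def cert7_v2 : TA 7 :=
  ((1 : ℕ) : TA 7) * tt 7 ^ 1 + ((2 : ℕ) : TA 7) * tt 7 ^ 2 + ((0 : ℕ) : TA 7) * tt 7 ^ 3
    + ((4 : ℕ) : TA 7) * tt 7 ^ 4 + ((3 : ℕ) : TA 7) * tt 7 ^ 5

theorem cert7_id0 : tt 7 = cert7_v0 * (1 + tt 7) := by
  simp only [cert7_v0]
  push_cast
  linear_combination ((-1 : TA 7)) * cert7_tt_pow +
    ((-1 : TA 7) * tt 7 ^ 2 + (-1 : TA 7) * tt 7 ^ 3 + (-1 : TA 7) * tt 7 ^ 4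
      + (-1 : TA 7) * tt 7 ^ 5) * cert7_p_eq_zero

theorem cert7_id1 : ∑ i ∈ range 2, (i : TA 7) * (1 + tt 7) ^ (i - 1) * tt 7 =
    cert7_v1 * ∑ i ∈ range 2, (1 + tt 7) ^ i := by
  simp only [cert7_v1, Finset.sum_range_succ, Finset.sum_range_zero]
  push_cast
  linear_combination ((-2 : TA 7)) * cert7_tt_pow +
    ((-1 : TA 7) * tt 7 ^ 1 + (-2 : TA 7) * tt 7 ^ 2 + (-1 : TA 7) * tt 7 ^ 3
      + (-1 : TA 7) * tt 7 ^ 4 + (-1 : TA 7) * tt 7 ^ 5) * cert7_p_eq_zero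

theorem cert7_id2 : ∑ i ∈ range 3, (i : TA 7) * (1 + tt 7) ^ (i - 1) * tt 7 =
    cert7_v2 * ∑ i ∈ range 3, (1 + tt 7) ^ i := by
  simp only [cert7_v2, Finset.sum_range_succ, Finset.sum_range_zero]
  push_cast
  linear_combination ((-13 : TA 7) + (-3 : TA 7) * tt 7 ^ 1) * cert7_tt_pow +
    ((-1 : TA 7) * tt 7 ^ 2 + (-1 : TA 7) * tt 7 ^ 3 + (-2 : TA 7) * tt 7 ^ 4
      + (-3 : TA 7) * tt 7 ^ 5) * cert7_p_eq_zero

theorem cert7_c_0_0 : coeffT 7 1 cert7_v0 = 1 := by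
  simp only [cert7_v0, map_add, coeffT_natCast_mul, coeffT_tt_pow, Nat.reduceSub,
    Nat.reduceLT]
  decide

theorem cert7_c_0_1 : coeffT 7 2 cert7_v0 = 6 := by
  simp only [cert7_v0, map_add, coeffT_natCast_mul, coeffT_tt_pow, Nat.reduceSub,
    Nat.reduceLT]
  decide

theorem cert7_c_0_2 : coeffT 7 4 cert7_v0 = 6 := by
  simp only [cert7_v0, map_add, coeffT_natCast_mul, coeffT_tt_pow, Nat.reduceSub,
    Nat.reduceLT]
  decide

theorem cert7_c_1_0 : coeffT 7 1 cert7_v1 = 4 := by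
  simp only [cert7_v1, map_add, coeffT_natCast_mul, coeffT_tt_pow, Nat.reduceSub,
    Nat.reduceLT]
  decide

theorem cert7_c_1_1 : coeffT 7 2 cert7_v1 = 5 := by
  simp only [cert7_v1, map_add, coeffT_natCast_mul, coeffT_tt_pow, Nat.reduceSub,
    Nat.reduceLT]
  decide

theorem cert7_c_1_2 : coeffT 7 4 cert7_v1 = 3 := by
  simp only [cert7_v1, map_add, coeffT_natCast_mul, coeffT_tt_pow, Nat.reduceSub,
    Nat.reduceLT]
  decide

theorem cert7_c_2_0 : coeffT 7 1 cert7_v2 = 1 := by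
  simp only [cert7_v2, map_add, coeffT_natCast_mul, coeffT_tt_pow, Nat.reduceSub,
    Nat.reduceLT]
  decide

theorem cert7_c_2_1 : coeffT 7 2 cert7_v2 = 2 := by
  simp only [cert7_v2, map_add, coeffT_natCast_mul, coeffT_tt_pow, Nat.reduceSub,
    Nat.reduceLT]
  decide

theorem cert7_c_2_2 : coeffT 7 4 cert7_v2 = 4 := by
  simp only [cert7_v2, map_add, coeffT_natCast_mul, coeffT_tt_pow, Nat.reduceSub,
    Nat.reduceLT]
  decide

/-- The values `v i = t F' / F` of the logarithmic derivative on the chosen units are linearly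
independent over `𝔽_7`. -/
theorem cert7_li : LinearIndependent (ZMod 7)
    (![cert7_v0, cert7_v1, cert7_v2] : Fin 3 → TA 7) := by
  refine linearIndependent_of_coeffT _ ![1, 2, 4]
    !![0, 3, 3;
       5, 4, 0;
       1, 6, 3] ?_
  have hM : (Matrix.of fun i j => coeffT 7 ((![1, 2, 4] : Fin 3 → ℕ) j)
      ((![cert7_v0, cert7_v1, cert7_v2] :
        Fin 3 → TA 7) i)) =
      (!![1, 6, 6;
          4, 5, 3;
          1, 2, 4] : Matrix (Fin 3) (Fin 3) (ZMod 7)) := by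
    ext i j
    fin_cases i <;> fin_cases j
    · exact cert7_c_0_0
    · exact cert7_c_0_1
    · exact cert7_c_0_2
    · exact cert7_c_1_0
    · exact cert7_c_1_1
    · exact cert7_c_1_2
    · exact cert7_c_2_0
    · exact cert7_c_2_1
    · exact cert7_c_2_2
  rw [hM]
  decide

/-- **Kummer's lemma** for `p = 7`: a unit of `𝓞 ℚ(ζ_7)` congruent to a rational integer
modulo `7` is a `7`-th power of a unit. -/
theorem kummerLemma_seven (K : Type*) [Field K] [NumberField K] [IsCyclotomicExtension {7} ℚ K] :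
    KummerLemmaHolds 7 K := by
  have hζ := IsCyclotomicExtension.zeta_spec 7 ℚ K
  have hp : Nat.Prime 7 := Fact.out
  refine kummerLemma_of_cert (p := 7) (by norm_num) hζ
    ![(hζ.toInteger_isPrimitiveRoot.isUnit hp.ne_zero).unit,
      (hζ.toInteger_isPrimitiveRoot.geom_sum_isUnit hp.two_le
        (by norm_num : Nat.Coprime 2 7)).unit,
      (hζ.toInteger_isPrimitiveRoot.geom_sum_isUnit hp.two_le
        (by norm_num : Nat.Coprime 3 7)).unit]
    ![cert7_v0, cert7_v1, cert7_v2] ?_ cert7_li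
  intro i
  fin_cases i
  · exact cert7_key_zeta hζ _ cert7_id0
  · exact cert7_key_geom hζ 2 (by norm_num) _ cert7_id1
  · exact cert7_key_geom hζ 3 (by norm_num) _ cert7_id2

end Fermat.Agent.KummerL
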