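import Mathlib

/-!
# Case I of Fermat's Last Theorem via Sophie Germain's theorem (elementary)

We prove Sophie Germain's theorem with a general auxiliary prime `q` (`caseI_of_germain`) and
deduce case I of Fermat's Last Theorem for the exponents `5` (`q = 11`), `7` (`q = 29`),
`11` (`q = 23`) and `13` (`q = 53`).
-/

set_option autoImplicit false

namespace Fermat.Agent.KummerL

/-- The cofactor `phi(y, z) = (y ^ p + z ^ p) / (y + z)` (for odd `p`). -/
def germain_phi {R : Type*} [CommRing R] (p : ℕ) (y z : R) : R :=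
  ∑ i ∈ Finset.range p, y ^ i * (-z) ^ (p - 1 - i)

lemma germain_phi_mul {R : Type*} [CommRing R] {p : ℕ} (hp : Odd p) (y z : R) :
    germain_phi p y z * (y + z) = y ^ p + z ^ p := by
  have h := geom_sum₂_mul y (-z) p
  rw [hp.neg_pow, sub_neg_eq_add, sub_neg_eq_add] at h
  exact h

lemma germain_dvd_phi_sub {R : Type*} [CommRing R] (p : ℕ) (y z : R) :
    y + z ∣ germain_phi p y z - (p : R) * y ^ (p - 1) := by
  rw [← geom_sum₂_self y p, germain_phi, ← Finset.sum_sub_distrib]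
  refine Finset.dvd_sum fun i _ => ?_
  rw [← mul_sub]
  refine Dvd.dvd.mul_left ?_ _
  have h := sub_dvd_pow_sub_pow (-z) y (p - 1 - i)
  have h' : -z - y = -(y + z) := by ring
  rw [h', neg_dvd] at h
  exact h

lemma germain_map_phi {R S : Type*} [CommRing R] [CommRing S] (f : R →+* S) (p : ℕ) (y z : R) :
    f (germain_phi p y z) = germain_phi p (f y) (f z) := by
  simp [germain_phi, map_sum]

lemma germain_isCoprime {p : ℕ} (hp : p.Prime) {y z : ℤ} (hyz : IsCoprime y z)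
    (hpyz : ¬ (p : ℤ) ∣ y ^ p + z ^ p) (hodd : Odd p) :
    IsCoprime (y + z) (germain_phi p y z) := by
  have hmul := germain_phi_mul hodd y z
  refine isCoprime_of_prime_dvd ?_ fun r hr hr1 hr2 => ?_
  · rintro ⟨h0, -⟩
    apply hpyz
    rw [← hmul, h0, mul_zero]
    exact dvd_zero _
  · have h3 : r ∣ (p : ℤ) * y ^ (p - 1) := by
      have h4 := hr1.trans (germain_dvd_phi_sub p y z)
      exact (dvd_sub_right hr2).mp h4
    rcases hr.dvd_or_dvd h3 with h5 | h5
    · -- r ∣ p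
      have hpP : Prime (p : ℤ) := Nat.prime_iff_prime_int.mp hp
      have h6 : (p : ℤ) ∣ r := ((hr.dvd_prime_iff_associated hpP).mp h5).symm.dvd
      apply hpyz
      rw [← hmul]
      exact Dvd.dvd.mul_left (h6.trans hr1) _
    · -- r ∣ y
      have h6 : r ∣ y := hr.dvd_of_dvd_pow h5
      have h7 : r ∣ z := (dvd_add_right h6).mp hr1
      exact hr.not_isUnit (hyz.isUnit_of_dvd' h6 h7)

lemma germain_exists_pow {p : ℕ} (hp : p.Prime) (hodd : Odd p) {u v w : ℤ}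
    (h : u ^ p + v ^ p + w ^ p = 0) (hvw : IsCoprime v w) (hpu : ¬ (p : ℤ) ∣ u) :
    ∃ A T : ℤ, v + w = A ^ p ∧ germain_phi p v w = T ^ p := by
  have hpP : Prime (p : ℤ) := Nat.prime_iff_prime_int.mp hp
  have hsum : v ^ p + w ^ p = (-u) ^ p := by
    rw [hodd.neg_pow]; linarith
  have hmul : (v + w) * germain_phi p v w = (-u) ^ p := by
    rw [mul_comm, germain_phi_mul hodd, hsum]
  have hcop : IsCoprime (v + w) (germain_phi p v w) := by
    refine germain_isCoprime hp hvw ?_ hodd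
    rw [hsum]
    intro hd
    exact hpu ((dvd_neg).mp (hpP.dvd_of_dvd_pow hd))
  obtain ⟨A, hA⟩ := Int.eq_pow_of_mul_eq_pow_odd_left hcop hodd hmul
  obtain ⟨T, hT⟩ := Int.eq_pow_of_mul_eq_pow_odd_right hcop hodd hmul
  exact ⟨A, T, hA, hT⟩

lemma germain_key (p q : ℕ) [Fact p.Prime] [Fact q.Prime] (hp2 : p ≠ 2)
    (h1 : ∀ x y z : ZMod q, x ^ p + y ^ p + z ^ p = 0 → x = 0 ∨ y = 0 ∨ z = 0)
    (h2 : ∀ n : ZMod q, n ^ p ≠ (p : ZMod q))
    (x y z : ℤ) (hxy : IsCoprime x y) (hyz : IsCoprime y z) (hzx : IsCoprime z x)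
    (hpx : ¬ (p : ℤ) ∣ x) (hpy : ¬ (p : ℤ) ∣ y) (hpz : ¬ (p : ℤ) ∣ z)
    (h : x ^ p + y ^ p + z ^ p = 0) : ¬ (q : ℤ) ∣ x := by
  intro hqx
  have hp : p.Prime := Fact.out
  have hq : q.Prime := Fact.out
  have hodd : Odd p := hp.odd_of_ne_two hp2
  have hqP : Prime (q : ℤ) := Nat.prime_iff_prime_int.mp hq
  obtain ⟨A, T, hA, hT⟩ := germain_exists_pow hp hodd h hyz hpx
  obtain ⟨B, -, hB, -⟩ := germain_exists_pow hp hodd (u := y) (v := z) (w := x)
    (by linarith) hzx hpy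
  obtain ⟨C, -, hC, -⟩ := germain_exists_pow hp hodd (u := z) (v := x) (w := y)
    (by linarith) hxy hpz
  -- reductions mod q
  have hx0 : ((x : ℤ) : ZMod q) = 0 := (ZMod.intCast_zmod_eq_zero_iff_dvd x q).mpr hqx
  have hy0 : ((y : ℤ) : ZMod q) ≠ 0 := by
    intro hy0
    have hqy : (q : ℤ) ∣ y := (ZMod.intCast_zmod_eq_zero_iff_dvd y q).mp hy0
    exact hqP.not_isUnit (hxy.isUnit_of_dvd' hqx hqy)
  have hz0 : ((z : ℤ) : ZMod q) ≠ 0 := by
    intro hz0
    have hqz : (q : ℤ) ∣ z := (ZMod.intCast_zmod_eq_zero_iff_dvd z q).mp hz0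
    exact hqP.not_isUnit (hzx.isUnit_of_dvd' hqz hqx)
  have hA' : (y : ZMod q) + (z : ZMod q) = (A : ZMod q) ^ p := by
    have := congrArg (Int.cast : ℤ → ZMod q) hA
    push_cast at this
    exact this
  have hB' : (z : ZMod q) = (B : ZMod q) ^ p := by
    have := congrArg (Int.cast : ℤ → ZMod q) hB
    push_cast at this
    rw [hx0, add_zero] at this
    exact this
  have hC' : (y : ZMod q) = (C : ZMod q) ^ p := by
    have := congrArg (Int.cast : ℤ → ZMod q) hC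
    push_cast at this
    rw [hx0, zero_add] at this
    exact this
  have hT' : germain_phi p (y : ZMod q) (z : ZMod q) = (T : ZMod q) ^ p := by
    have := congrArg (Int.castRingHom (ZMod q)) hT
    rw [germain_map_phi, map_pow] at this
    exact this
  have hsum : (C : ZMod q) ^ p + (B : ZMod q) ^ p + (-(A : ZMod q)) ^ p = 0 := by
    rw [hodd.neg_pow, ← hA', ← hB', ← hC']
    ring
  have hp0 : p ≠ 0 := hp.ne_zero
  rcases h1 _ _ _ hsum with hC0 | hB0 | hA0
  · apply hy0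
    rw [hC', hC0, zero_pow hp0]
  · apply hz0
    rw [hB', hB0, zero_pow hp0]
  · have hA0' : (A : ZMod q) = 0 := neg_eq_zero.mp hA0
    have hyz0 : (y : ZMod q) + (z : ZMod q) = 0 := by
      rw [hA', hA0', zero_pow hp0]
    have hphi : germain_phi p (y : ZMod q) (z : ZMod q) =
        (p : ZMod q) * (y : ZMod q) ^ (p - 1) := by
      have hd := germain_dvd_phi_sub p (y : ZMod q) (z : ZMod q)
      rw [hyz0, zero_dvd_iff, sub_eq_zero] at hd
      exact hd
    have hC0 : (C : ZMod q) ≠ 0 := by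
      intro hC0
      apply hy0
      rw [hC', hC0, zero_pow hp0]
    have hCp : ((C : ZMod q) ^ (p - 1)) ^ p ≠ 0 := pow_ne_zero _ (pow_ne_zero _ hC0)
    apply h2 ((T : ZMod q) * ((C : ZMod q) ^ (p - 1))⁻¹)
    rw [mul_pow, inv_pow, ← hT', hphi, hC', ← pow_mul, ← pow_mul, mul_comm (p - 1) p]
    rw [← pow_mul, mul_comm (p - 1) p] at hCp
    exact mul_inv_cancel_right₀ hCp _

/-- **Sophie Germain's theorem** (with a general auxiliary prime `q`): if
(1) `x ^ p + y ^ p + z ^ p = 0` in `ZMod q` forces `x * y * z = 0`, and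
(2) `p` is not a `p`-th power in `ZMod q`,
then case I of Fermat's Last Theorem holds for the odd prime `p`. -/
theorem caseI_of_germain (p q : ℕ) [Fact p.Prime] [Fact q.Prime] (hp2 : p ≠ 2)
    (h1 : ∀ x y z : ZMod q, x ^ p + y ^ p + z ^ p = 0 → x = 0 ∨ y = 0 ∨ z = 0)
    (h2 : ∀ n : ZMod q, n ^ p ≠ (p : ZMod q))
    (a b c : ℤ) (hgcd : Finset.gcd {a, b, c} id = 1) (hpabc : ¬ (p : ℤ) ∣ a * b * c) :
    a ^ p + b ^ p ≠ c ^ p := by
  intro habc
  have hp : p.Prime := Fact.out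
  have hodd : Odd p := hp.odd_of_ne_two hp2
  have hF : a ^ p + b ^ p + (-c) ^ p = 0 := by
    rw [hodd.neg_pow, habc]; ring
  have hgcd' : Finset.gcd {a, b, -c} id = 1 := by
    simp only [← hgcd, Finset.gcd_insert, Finset.gcd_singleton, id_eq, ← Int.abs_eq_normalize,
      abs_neg]
  have hpa : ¬ (p : ℤ) ∣ a := fun hd => hpabc ((hd.mul_right b).mul_right c)
  have hpb : ¬ (p : ℤ) ∣ b := fun hd => hpabc ((hd.mul_left a).mul_right c)
  have hpc : ¬ (p : ℤ) ∣ -c := fun hd => hpabc ((dvd_neg.mp hd).mul_left (a * b))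
  have hab : IsCoprime a b := isCoprime_of_gcd_eq_one_of_FLT hgcd' hF
  have hF2 : b ^ p + (-c) ^ p + a ^ p = 0 := by linarith
  have hF3 : (-c) ^ p + a ^ p + b ^ p = 0 := by linarith
  have hbc : IsCoprime b (-c) := by
    refine isCoprime_of_gcd_eq_one_of_FLT ?_ hF2
    rw [← hgcd']
    congr 1
    ext t
    simp only [Finset.mem_insert, Finset.mem_singleton]
    tauto
  have hca : IsCoprime (-c) a := by
    refine isCoprime_of_gcd_eq_one_of_FLT ?_ hF3
    rw [← hgcd']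
    congr 1
    ext t
    simp only [Finset.mem_insert, Finset.mem_singleton]
    tauto
  have hFq : ((a : ℤ) : ZMod q) ^ p + ((b : ℤ) : ZMod q) ^ p + ((-c : ℤ) : ZMod q) ^ p =
      0 := by
    have := congrArg (Int.cast : ℤ → ZMod q) hF
    push_cast at this
    push_cast
    exact this
  rcases h1 _ _ _ hFq with h0 | h0 | h0
  · exact germain_key p q hp2 h1 h2 a b (-c) hab hbc hca hpa hpb hpc hF
      ((ZMod.intCast_zmod_eq_zero_iff_dvd _ q).mp h0)
  · exact germain_key p q hp2 h1 h2 b (-c) a hbc hca hab hpb hpc hpa hF2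
      ((ZMod.intCast_zmod_eq_zero_iff_dvd _ q).mp h0)
  · exact germain_key p q hp2 h1 h2 (-c) a b hca hab hbc hpc hpa hpb hF3
      ((ZMod.intCast_zmod_eq_zero_iff_dvd _ q).mp h0)

/-- Criterion for hypothesis (1) of Germain's theorem: all nonzero `p`-th powers mod `q` lie in
a finite set `S` no three elements of which sum to zero. -/
lemma germain_h1_of_finset (p q : ℕ) (hq : q.Prime) (S : Finset (ZMod q))
    (hS : ∀ x : ZMod q, x ^ p = 0 ∨ x ^ p ∈ S)
    (hsum : ∀ u ∈ S, ∀ v ∈ S, ∀ w ∈ S, u + v + w ≠ 0) :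
    ∀ x y z : ZMod q, x ^ p + y ^ p + z ^ p = 0 → x = 0 ∨ y = 0 ∨ z = 0 := by
  have : Fact q.Prime := ⟨hq⟩
  intro x y z h
  by_contra hne
  simp only [not_or] at hne
  obtain ⟨hx, hy, hz⟩ := hne
  have hx' := (hS x).resolve_left (pow_ne_zero p hx)
  have hy' := (hS y).resolve_left (pow_ne_zero p hy)
  have hz' := (hS z).resolve_left (pow_ne_zero p hz)
  exact hsum _ hx' _ hy' _ hz' h

/-- Criterion for hypothesis (2) of Germain's theorem. -/
lemma germain_h2_of_finset (p q : ℕ) (S : Finset (ZMod q))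
    (hS : ∀ x : ZMod q, x ^ p = 0 ∨ x ^ p ∈ S)
    (hp0 : (p : ZMod q) ≠ 0) (hpS : (p : ZMod q) ∉ S) :
    ∀ n : ZMod q, n ^ p ≠ (p : ZMod q) := by
  intro n hn
  rcases hS n with h | h
  · exact hp0 (hn ▸ h)
  · exact hpS (hn ▸ h)

section germain_finite_checks

-- the `decide` checks below need a recursion depth growing linearly with `q`
set_option maxRecDepth 4000

/-! ### `p = 5`, `q = 11` -/

lemma germain_pow_mem_five :
    ∀ x : ZMod 11, x ^ 5 = 0 ∨ x ^ 5 ∈ ({1, 10} : Finset (ZMod 11)) := by decide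

lemma germain_h1_five :
    ∀ x y z : ZMod 11, x ^ 5 + y ^ 5 + z ^ 5 = 0 → x = 0 ∨ y = 0 ∨ z = 0 :=
  germain_h1_of_finset 5 11 (by norm_num) {1, 10} germain_pow_mem_five (by decide)

lemma germain_h2_five : ∀ n : ZMod 11, n ^ 5 ≠ ((5 : ℕ) : ZMod 11) :=
  germain_h2_of_finset 5 11 {1, 10} germain_pow_mem_five (by decide) (by decide)

/-! ### `p = 7`, `q = 29` -/

lemma germain_pow_mem_seven :
    ∀ x : ZMod 29, x ^ 7 = 0 ∨ x ^ 7 ∈ ({1, 12, 17, 28} : Finset (ZMod 29)) := by decide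

lemma germain_h1_seven :
    ∀ x y z : ZMod 29, x ^ 7 + y ^ 7 + z ^ 7 = 0 → x = 0 ∨ y = 0 ∨ z = 0 :=
  germain_h1_of_finset 7 29 (by norm_num) {1, 12, 17, 28} germain_pow_mem_seven (by decide)

lemma germain_h2_seven : ∀ n : ZMod 29, n ^ 7 ≠ ((7 : ℕ) : ZMod 29) :=
  germain_h2_of_finset 7 29 {1, 12, 17, 28} germain_pow_mem_seven (by decide) (by decide)

/-! ### `p = 11`, `q = 23` -/

lemma germain_pow_mem_eleven :
    ∀ x : ZMod 23, x ^ 11 = 0 ∨ x ^ 11 ∈ ({1, 22} : Finset (ZMod 23)) := by decide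

lemma germain_h1_eleven :
    ∀ x y z : ZMod 23, x ^ 11 + y ^ 11 + z ^ 11 = 0 → x = 0 ∨ y = 0 ∨ z = 0 :=
  germain_h1_of_finset 11 23 (by norm_num) {1, 22} germain_pow_mem_eleven (by decide)

lemma germain_h2_eleven : ∀ n : ZMod 23, n ^ 11 ≠ ((11 : ℕ) : ZMod 23) :=
  germain_h2_of_finset 11 23 {1, 22} germain_pow_mem_eleven (by decide) (by decide)

/-! ### `p = 13`, `q = 53` -/

lemma germain_pow_mem_thirteen :
    ∀ x : ZMod 53, x ^ 13 = 0 ∨ x ^ 13 ∈ ({1, 23, 30, 52} : Finset (ZMod 53)) := by decide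

lemma germain_h1_thirteen :
    ∀ x y z : ZMod 53, x ^ 13 + y ^ 13 + z ^ 13 = 0 → x = 0 ∨ y = 0 ∨ z = 0 :=
  germain_h1_of_finset 13 53 (by norm_num) {1, 23, 30, 52} germain_pow_mem_thirteen (by decide)

lemma germain_h2_thirteen : ∀ n : ZMod 53, n ^ 13 ≠ ((13 : ℕ) : ZMod 53) :=
  germain_h2_of_finset 13 53 {1, 23, 30, 52} germain_pow_mem_thirteen (by decide) (by decide)

end germain_finite_checks

/-! ### The four instances -/

theorem caseI_five (a b c : ℤ) (hgcd : Finset.gcd {a, b, c} id = 1)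
    (hpabc : ¬ ((5 : ℕ) : ℤ) ∣ a * b * c) : a ^ 5 + b ^ 5 ≠ c ^ 5 := by
  have : Fact (Nat.Prime 5) := ⟨by norm_num⟩
  have : Fact (Nat.Prime 11) := ⟨by norm_num⟩
  exact caseI_of_germain 5 11 (by norm_num) germain_h1_five germain_h2_five a b c hgcd hpabc

theorem caseI_seven (a b c : ℤ) (hgcd : Finset.gcd {a, b, c} id = 1)
    (hpabc : ¬ ((7 : ℕ) : ℤ) ∣ a * b * c) : a ^ 7 + b ^ 7 ≠ c ^ 7 := by
  have : Fact (Nat.Prime 7) := ⟨by norm_num⟩
  have : Fact (Nat.Prime 29) := ⟨by norm_num⟩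
  exact caseI_of_germain 7 29 (by norm_num) germain_h1_seven germain_h2_seven a b c hgcd hpabc

theorem caseI_eleven (a b c : ℤ) (hgcd : Finset.gcd {a, b, c} id = 1)
    (hpabc : ¬ ((11 : ℕ) : ℤ) ∣ a * b * c) : a ^ 11 + b ^ 11 ≠ c ^ 11 := by
  have : Fact (Nat.Prime 11) := ⟨by norm_num⟩
  have : Fact (Nat.Prime 23) := ⟨by norm_num⟩
  exact caseI_of_germain 11 23 (by norm_num) germain_h1_eleven germain_h2_eleven a b c hgcd hpabc

theorem caseI_thirteen (a b c : ℤ) (hgcd : Finset.gcd {a, b, c} id = 1)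
    (hpabc : ¬ ((13 : ℕ) : ℤ) ∣ a * b * c) : a ^ 13 + b ^ 13 ≠ c ^ 13 := by
  have : Fact (Nat.Prime 13) := ⟨by norm_num⟩
  have : Fact (Nat.Prime 53) := ⟨by norm_num⟩
  exact caseI_of_germain 13 53 (by norm_num) germain_h1_thirteen germain_h2_thirteen
    a b c hgcd hpabc

end Fermat.Agent.KummerL
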