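import Mathlib
import Fermat.Agent.KummerL.Defs

/-!
# `𝓞 ℚ(ζ_11)` is a principal ideal domain

The Minkowski bound of `K = ℚ(ζ_11)` is `≈ 58.96`.  For every prime `q ≤ 58` other than `11`
and `23`, the primes over `q` have norm `q ^ orderOf (q : ZMod 11) > 58`; the prime over `11` is
`(ζ - 1)`, and `(23, ζ + 10) = (1 - ζ + ζ ^ 3)` is a principal prime over `23`
(Kummer–Dedekind + explicit cofactors).

The first part of the file consists of generic tools for the `p`-th cyclotomic field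
(`pid11_minkowski_eq`, `pid11_floor_minkowski_le`, `pid11_isPrincipalIdealRing`,
`pid11_span_pair_mem_primesOver`, ...); they are also available, under the prefix `pidt_`,
in `Fermat/Agent/KummerL/PIDTools.lean`.
-/

set_option autoImplicit false

namespace Fermat.Agent.KummerL

open NumberField

section PID11Tools

open Module InfinitePlace Ideal Nat Real Polynomial

variable (p : ℕ) [hp : Fact p.Prime] (K : Type*) [Field K] [NumberField K]
  [IsCyclotomicExtension {p} ℚ K]

/-- The Minkowski bound of the `p`-th cyclotomic field, made explicit. -/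
private theorem pid11_minkowski_eq :
    (4 / π) ^ nrComplexPlaces K *
        ((finrank ℚ K)! / (finrank ℚ K) ^ (finrank ℚ K) * √|discr K|) =
      (4 / π) ^ ((p - 1) / 2) *
        (((p - 1)! : ℕ) / ((p - 1 : ℕ) : ℝ) ^ (p - 1) * √((p : ℝ) ^ (p - 2))) := by
  have : NeZero p := ⟨hp.out.ne_zero⟩
  rw [IsCyclotomicExtension.Rat.discr_prime p K, IsCyclotomicExtension.finrank (n := p) K
    (Polynomial.cyclotomic.irreducible_rat hp.out.pos),
    IsCyclotomicExtension.Rat.nrComplexPlaces_eq_totient_div_two p,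
    Nat.totient_prime hp.out]
  congr 3
  push_cast
  rw [abs_mul, abs_pow, abs_pow, abs_neg, abs_one, one_pow, one_mul, Nat.abs_cast]

/-- Bounding the floor of the Minkowski bound of the `p`-th cyclotomic field: `c` is a lower
bound for `π` and `s` an upper bound for `√(p^(p-2))`. -/
private theorem pid11_floor_minkowski_le (B : ℕ) (c s : ℝ) (hc0 : 0 < c) (hc : c ≤ π)
    (hs0 : 0 ≤ s) (hs : (p : ℝ) ^ (p - 2) ≤ s ^ 2)
    (hB : (4 / c) ^ ((p - 1) / 2) * (((p - 1)! : ℕ) / ((p - 1 : ℕ) : ℝ) ^ (p - 1) * s) < B + 1) :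
    ⌊(4 / π) ^ nrComplexPlaces K *
        ((finrank ℚ K)! / (finrank ℚ K) ^ (finrank ℚ K) * √|discr K|)⌋₊ ≤ B := by
  rw [pid11_minkowski_eq p K]
  apply Nat.le_of_lt_succ
  rw [Nat.floor_lt (by positivity)]
  push_cast
  refine lt_of_le_of_lt ?_ hB
  gcongr
  exact Real.sqrt_le_iff.mpr ⟨hs0, hs⟩

/-- For a prime `q ≠ p` there is a prime of the `p`-th cyclotomic field over `q`, and its
inertia degree is the order of `q` modulo `p`. -/
private theorem pid11_exists_primesOver_inertiaDeg (q : ℕ) (hq : q.Prime) (hqp : q ≠ p) :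
    ∃ P ∈ primesOver (span {(q : ℤ)}) (𝓞 K), P.inertiaDeg ℤ = orderOf (q : ZMod p) := by
  have : NeZero p := ⟨hp.out.ne_zero⟩
  have : Fact q.Prime := ⟨hq⟩
  have hq' : (span {(q : ℤ)}).IsPrime :=
    (Ideal.span_singleton_prime (by exact_mod_cast hq.ne_zero)).mpr
      (Nat.prime_iff_prime_int.mp hq)
  obtain ⟨⟨P, hP1, hP2⟩⟩ := (span {(q : ℤ)}).nonempty_primesOver (S := 𝓞 K)
  refine ⟨P, ⟨hP1, hP2⟩, ?_⟩
  exact IsCyclotomicExtension.Rat.inertiaDeg_eq_of_not_dvd q K P
    (fun h => hqp ((Nat.prime_dvd_prime_iff_eq hq hp.out).mp h))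

/-- The prime of the `p`-th cyclotomic field over `p` is principal. -/
private theorem pid11_exists_primesOver_isPrincipal_self :
    ∃ P ∈ primesOver (span {(p : ℤ)}) (𝓞 K), Submodule.IsPrincipal P := by
  have : NeZero p := ⟨hp.out.ne_zero⟩
  have hζ := IsCyclotomicExtension.zeta_spec p ℚ K
  refine ⟨span {hζ.toInteger - 1},
    ⟨IsCyclotomicExtension.Rat.isPrime_span_zeta_sub_one' p hζ, ?_⟩, ⟨⟨_, rfl⟩⟩⟩
  have hK : IsCyclotomicExtension {p ^ (0 + 1)} ℚ K := by rwa [zero_add, pow_one]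
  have hζ' : IsPrimitiveRoot (IsCyclotomicExtension.zeta p ℚ K) (p ^ (0 + 1)) := by
    rwa [zero_add, pow_one]
  exact IsCyclotomicExtension.Rat.liesOver_span_zeta_sub_one p 0 hζ'

/-- Main reduction: to prove that the ring of integers of the `p`-th cyclotomic field is a PID,
it suffices to bound the (floor of the) Minkowski constant by `B` and, for each prime `q ≤ B`
other than `p`, either to check `B < q ^ orderOf (q : ZMod p)` or to exhibit one principal prime
over `q`. -/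
private theorem pid11_isPrincipalIdealRing (B : ℕ)
    (hB : ⌊(4 / π) ^ nrComplexPlaces K *
        ((finrank ℚ K)! / (finrank ℚ K) ^ (finrank ℚ K) * √|discr K|)⌋₊ ≤ B)
    (h : ∀ q ∈ Finset.Icc 1 B, q.Prime → q ≠ p → B < q ^ orderOf (q : ZMod p) ∨
      ∃ P ∈ primesOver (span {(q : ℤ)}) (𝓞 K), Submodule.IsPrincipal P) :
    IsPrincipalIdealRing (𝓞 K) := by
  have : IsGalois ℚ K := IsCyclotomicExtension.isGalois {p} ℚ K
  refine RingOfIntegers.isPrincipalIdealRing_of_isPrincipal_of_lt_or_isPrincipal_of_mem_primesOver_of_mem_Icc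
    (fun q hq hqprime => ?_)
  rw [Finset.mem_Icc] at hq
  by_cases hqp : q = p
  · subst hqp
    obtain ⟨P, hP, hPp⟩ := pid11_exists_primesOver_isPrincipal_self q K
    exact ⟨P, hP, Or.inr hPp⟩
  · rcases h q (Finset.mem_Icc.mpr ⟨hq.1, hq.2.trans hB⟩) hqprime hqp with h1 | ⟨P, hP, hPp⟩
    · obtain ⟨P, hP, hPf⟩ := pid11_exists_primesOver_inertiaDeg p K q hqprime hqp
      exact ⟨P, hP, Or.inl (by rw [hPf]; exact lt_of_le_of_lt hB h1)⟩
    · exact ⟨P, hP, Or.inr hPp⟩

variable {p K}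

/-- Kummer–Dedekind for the `p`-th cyclotomic field: if `Q mod q` is a monic irreducible factor
of the `p`-th cyclotomic polynomial mod `q`, then `(q, Q(ζ))` is a prime over `q`. -/
private theorem pid11_span_pair_mem_primesOver {ζ : K} (hζ : IsPrimitiveRoot ζ p) (q : ℕ)
    [Fact q.Prime] (Q : ℤ[X]) (hQm : (Q.map (Int.castRingHom (ZMod q))).Monic)
    (hQi : Irreducible (Q.map (Int.castRingHom (ZMod q))))
    (hQd : Q.map (Int.castRingHom (ZMod q)) ∣ cyclotomic p (ZMod q)) :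
    span {(q : 𝓞 K), aeval hζ.toInteger Q} ∈ primesOver (span {(q : ℤ)}) (𝓞 K) := by
  classical
  have : NeZero p := ⟨hp.out.ne_zero⟩
  have h₁ : ¬ q ∣ RingOfIntegers.exponent hζ.toInteger := by
    rw [RingOfIntegers.exponent_eq_one_iff.mpr <|
      IsCyclotomicExtension.Rat.adjoin_singleton_eq_top hζ]
    exact (Fact.out : q.Prime).not_dvd_one
  have hmin : (minpoly ℤ hζ.toInteger).map (Int.castRingHom (ZMod q)) =
      cyclotomic p (ZMod q) := by
    rw [← map_cyclotomic_int, cyclotomic_eq_minpoly hζ hp.out.pos,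
      ← RingOfIntegers.minpoly_coe hζ.toInteger]
    rfl
  have hQ : Q.map (Int.castRingHom (ZMod q)) ∈
      RingOfIntegers.monicFactorsMod hζ.toInteger q := by
    rw [Multiset.mem_toFinset, Polynomial.mem_normalizedFactors_iff
      (map_monic_ne_zero (minpoly.monic hζ.toInteger.isIntegral)), hmin]
    exact ⟨hQi, hQm, hQd⟩
  rw [← NumberField.Ideal.primesOverSpanEquivMonicFactorsMod_symm_apply_eq_span h₁ hQ]
  exact ((NumberField.Ideal.primesOverSpanEquivMonicFactorsMod h₁).symm ⟨_, hQ⟩).2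

/-- Linear case of Kummer–Dedekind: if `r` is a root of the `p`-th cyclotomic polynomial mod `q`
then `(q, ζ - r)` is a prime over `q`. -/
private theorem pid11_span_pair_linear_mem_primesOver {ζ : K} (hζ : IsPrimitiveRoot ζ p) (q : ℕ)
    [Fact q.Prime] (r : ℤ) (hr : (q : ℤ) ∣ ∑ i ∈ Finset.range p, r ^ i) :
    span {(q : 𝓞 K), hζ.toInteger - (r : 𝓞 K)} ∈ primesOver (span {(q : ℤ)}) (𝓞 K) := by
  have hmap : (X - C r : ℤ[X]).map (Int.castRingHom (ZMod q)) = X - C (r : ZMod q) := by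
    simp
  have := pid11_span_pair_mem_primesOver hζ q (X - C r) (by rw [hmap]; exact monic_X_sub_C _)
    (by rw [hmap]; exact irreducible_X_sub_C _)
    (by
      rw [hmap, dvd_iff_isRoot, IsRoot.def, cyclotomic_prime, eval_geom_sum]
      have : ((∑ i ∈ Finset.range p, r ^ i : ℤ) : ZMod q) = 0 :=
        (ZMod.intCast_zmod_eq_zero_iff_dvd _ _).mpr hr
      simpa using this)
  simpa using this

/-- A two-generator ideal is principal, given explicit cofactors. -/
private theorem pid11_span_pair_eq_span_singleton {R : Type*} [CommRing R] {a b α : R}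
    (β γ x y : R) (h1 : α * β = a) (h2 : α * γ = b) (h3 : a * x + b * y = α) :
    span {a, b} = span {α} := by
  apply le_antisymm
  · rw [span_le]
    rintro z (rfl | rfl)
    · exact mem_span_singleton.mpr ⟨β, h1.symm⟩
    · exact mem_span_singleton.mpr ⟨γ, h2.symm⟩
  · rw [span_singleton_le_iff_mem, mem_span_pair]
    exact ⟨x, y, by rw [← h3]; ring⟩

omit [NumberField K] [IsCyclotomicExtension {p} ℚ K] in
/-- The `p`-th cyclotomic relation for `ζ` in the ring of integers. -/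
private theorem pid11_geom_sum_toInteger {ζ : K} (hζ : IsPrimitiveRoot ζ p) :
    ∑ i ∈ Finset.range p, hζ.toInteger ^ i = 0 :=
  hζ.toInteger_isPrimitiveRoot.geom_sum_eq_zero hp.out.one_lt

/-- Packaged split-prime case: if `r` is a root of the `p`-th cyclotomic polynomial mod `q` and
`(q, ζ - r) = (α)` is certified by explicit cofactors, then there is a principal prime over `q`. -/
private theorem pid11_exists_primesOver_isPrincipal_of_linear {ζ : K} (hζ : IsPrimitiveRoot ζ p)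
    (q : ℕ) (hq : q.Prime) (r : ℤ) (hr : (q : ℤ) ∣ ∑ i ∈ Finset.range p, r ^ i)
    (α β γ x y : 𝓞 K) (h1 : α * β = (q : 𝓞 K)) (h2 : α * γ = hζ.toInteger - (r : 𝓞 K))
    (h3 : (q : 𝓞 K) * x + (hζ.toInteger - (r : 𝓞 K)) * y = α) :
    ∃ P ∈ primesOver (span {(q : ℤ)}) (𝓞 K), Submodule.IsPrincipal P := by
  have : Fact q.Prime := ⟨hq⟩
  refine ⟨_, pid11_span_pair_linear_mem_primesOver hζ q r hr, ?_⟩
  rw [pid11_span_pair_eq_span_singleton β γ x y h1 h2 h3]
  exact ⟨⟨_, rfl⟩⟩

end PID11Tools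

/-- The Minkowski bound of `ℚ(ζ_11)` is `< 59`. -/
private theorem pid11_minkowski (K : Type*) [Field K] [NumberField K]
    [IsCyclotomicExtension {11} ℚ K] :
    ⌊(4 / Real.pi) ^ InfinitePlace.nrComplexPlaces K *
        ((Module.finrank ℚ K).factorial / (Module.finrank ℚ K) ^ (Module.finrank ℚ K) *
          √|(discr K : ℝ)|)⌋₊ ≤ 58 := by
  refine pid11_floor_minkowski_le 11 K 58 3.1415 48558.71 (by norm_num) Real.pi_gt_d4.le
    (by norm_num) (by norm_num) ?_
  norm_num [Nat.factorial]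

/-- For the primes `q ≤ 58` other than `11` and `23`, `q ^ f > 58` as soon as
`q ^ f ≡ 1 mod 11` with `0 < f`. -/
private theorem pid11_orders : ∀ q : ℕ, q < 59 → q.Prime ∧ q ≠ 11 ∧ q ≠ 23 →
    ∀ f : ℕ, f ≤ 10 → 0 < f ∧ q ^ f % 11 = 1 → 58 < q ^ f := by
  decide

/-- For the primes `q ≤ 58` other than `11` and `23`, the primes over `q` have norm `> 58`. -/
private theorem pid11_order_bound (q : ℕ) (hq : q.Prime) (hq58 : q ≤ 58) (h11 : q ≠ 11)
    (h23 : q ≠ 23) : 58 < q ^ orderOf (q : ZMod 11) := by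
  have hq0 : (q : ZMod 11) ≠ 0 := by
    rw [Ne, ZMod.natCast_eq_zero_iff]
    intro h
    exact h11 ((Nat.prime_dvd_prime_iff_eq (by norm_num) hq).mp h).symm
  have hdvd : orderOf (q : ZMod 11) ∣ 10 :=
    orderOf_dvd_of_pow_eq_one (ZMod.pow_card_sub_one_eq_one hq0)
  have hpos : 0 < orderOf (q : ZMod 11) := Nat.pos_of_dvd_of_pos hdvd (by norm_num)
  have hle : orderOf (q : ZMod 11) ≤ 10 := Nat.le_of_dvd (by norm_num) hdvd
  have h1 : (q : ZMod 11) ^ orderOf (q : ZMod 11) = 1 := pow_orderOf_eq_one _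
  have h1' : q ^ orderOf (q : ZMod 11) % 11 = 1 := by
    have := (ZMod.natCast_eq_natCast_iff' (q ^ orderOf (q : ZMod 11)) 1 11).mp
      (by push_cast; exact h1)
    simpa using this
  exact pid11_orders q (by omega) ⟨hq, h11, h23⟩ _ hle ⟨hpos, h1'⟩

/-- There is a principal prime over `23` in `𝓞 ℚ(ζ_11)`: `(23, ζ + 10) = (1 - ζ + ζ ^ 3)`. -/
private theorem pid11_prime_23 (K : Type*) [Field K] [NumberField K]
    [IsCyclotomicExtension {11} ℚ K] :
    ∃ P ∈ Ideal.primesOver (Ideal.span {((23 : ℕ) : ℤ)}) (𝓞 K), Submodule.IsPrincipal P := by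
  have hζ := IsCyclotomicExtension.zeta_spec 11 ℚ K
  have h := pid11_geom_sum_toInteger hζ
  simp only [Finset.sum_range_succ, Finset.sum_range_zero, zero_add, pow_zero, pow_one] at h
  obtain ⟨θ, hθ⟩ : ∃ θ : 𝓞 K, θ = hζ.toInteger := ⟨_, rfl⟩
  rw [← hθ] at h
  refine pid11_exists_primesOver_isPrincipal_of_linear hζ 23 (by norm_num) (-10) (by decide)
    (1 - θ + θ ^ 3)
    (8 - 2 * θ - θ ^ 2 - 8 * θ ^ 3 - 5 * θ ^ 4 - 3 * θ ^ 5 + 6 * θ ^ 6 + 12 * θ ^ 7 + 16 * θ ^ 8
      + 11 * θ ^ 9)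
    (3 - θ - θ ^ 2 - 4 * θ ^ 3 - 3 * θ ^ 4 - 2 * θ ^ 5 + 2 * θ ^ 6 + 5 * θ ^ 7 + 7 * θ ^ 8
      + 5 * θ ^ 9)
    (-43) (99 - 10 * θ + θ ^ 2) ?_ ?_ ?_
  · push_cast
    linear_combination (-15 + 5 * θ + 11 * θ ^ 2) * h
  · rw [← hθ]
    push_cast
    linear_combination (-7 + 2 * θ + 5 * θ ^ 2) * h
  · rw [← hθ]
    push_cast
    ring

theorem pid_eleven (K : Type*) [Field K] [NumberField K] [IsCyclotomicExtension {11} ℚ K] :
    IsPrincipalIdealRing (𝓞 K) := by
  refine pid11_isPrincipalIdealRing 11 K 58 (pid11_minkowski K) (fun q hq hqprime hq11 => ?_)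
  rw [Finset.mem_Icc] at hq
  by_cases hq23 : q = 23
  · subst hq23
    exact Or.inr (pid11_prime_23 K)
  · exact Or.inl (pid11_order_bound q hqprime hq.2 hq11 hq23)

end Fermat.Agent.KummerL
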