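import Mathlib

/-!
# Reduction of Fermat's Last Theorem for an odd prime exponent to case I and case II
(generalisation of `fermatLastTheoremThree_of_three_dvd_only_c` in Mathlib)
-/

set_option autoImplicit false

namespace Fermat.Agent.KummerL

/-- Generalisation of Mathlib's `three_dvd_b_of_dvd_a_of_gcd_eq_one_of_case2` to an odd
prime `p`. -/
private lemma reduction_dvd_b_of_dvd_a_of_gcd_eq_one_of_case2 {p : ℕ} (hpp : Prime (p : ℤ))
    (hodd : Odd p) {a b c : ℤ} (ha : a ≠ 0)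
    (Hgcd : Finset.gcd {a, b, c} id = 1) (hpa : (p : ℤ) ∣ a) (HF : a ^ p + b ^ p + c ^ p = 0)
    (H : ∀ a b c : ℤ, c ≠ 0 → ¬ (p : ℤ) ∣ a → ¬ (p : ℤ) ∣ b → (p : ℤ) ∣ c → IsCoprime a b →
      a ^ p + b ^ p ≠ c ^ p) :
    (p : ℤ) ∣ b := by
  have hbc : IsCoprime (-b) (-c) := by
    refine IsCoprime.neg_neg ?_
    rw [add_comm (a ^ p), add_assoc, add_comm (a ^ p), ← add_assoc] at HF
    refine isCoprime_of_gcd_eq_one_of_FLT ?_ HF
    convert! Hgcd using 2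
    rw [Finset.pair_comm, Finset.insert_comm]
  by_contra! hpb
  by_cases hpc : (p : ℤ) ∣ c
  · apply hpb
    rw [add_assoc, add_comm (b ^ p), ← add_assoc] at HF
    exact dvd_c_of_prime_of_dvd_a_of_dvd_b_of_FLT hpp hpa hpc HF
  · refine H (-b) (-c) a ha (by simp [hpb]) (by simp [hpc]) hpa hbc ?_
    rw [hodd.neg_pow, hodd.neg_pow]
    linear_combination -HF

/-- Generalisation of Mathlib's `fermatLastTheoremThree_of_dvd_a_of_gcd_eq_one_of_case2` to an
odd prime `p`. -/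
private lemma reduction_ne_zero_of_dvd_a_of_gcd_eq_one_of_case2 {p : ℕ} (hpp : Prime (p : ℤ))
    (hodd : Odd p) {a b c : ℤ} (ha : a ≠ 0)
    (hpa : (p : ℤ) ∣ a) (Hgcd : Finset.gcd {a, b, c} id = 1)
    (H : ∀ a b c : ℤ, c ≠ 0 → ¬ (p : ℤ) ∣ a → ¬ (p : ℤ) ∣ b → (p : ℤ) ∣ c → IsCoprime a b →
      a ^ p + b ^ p ≠ c ^ p) :
    a ^ p + b ^ p + c ^ p ≠ 0 := by
  intro HF
  apply hpp.not_dvd_one
  rw [← Hgcd]
  refine Finset.dvd_gcd (fun x hx ↦ ?_)
  simp only [Finset.mem_insert, Finset.mem_singleton] at hx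
  have hpb : (p : ℤ) ∣ b :=
    reduction_dvd_b_of_dvd_a_of_gcd_eq_one_of_case2 hpp hodd ha Hgcd hpa HF H
  rcases hx with hx | hx | hx
  · exact hx ▸ hpa
  · exact hx ▸ hpb
  · simpa [hx] using dvd_c_of_prime_of_dvd_a_of_dvd_b_of_FLT hpp hpa hpb HF

/-- To prove Fermat's Last Theorem for an odd prime `p` it suffices to treat case I (for coprime
triples with `p ∤ a * b * c`) and case II in the normalised form `p ∣ c`, `p ∤ a`, `p ∤ b`,
`a`, `b` coprime. -/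
theorem fermatLastTheoremFor_of_caseI_of_caseII (p : ℕ) [Fact p.Prime] (hp2 : p ≠ 2)
    (H1 : ∀ a b c : ℤ, Finset.gcd {a, b, c} id = 1 → ¬ (p : ℤ) ∣ a * b * c →
      a ^ p + b ^ p ≠ c ^ p)
    (H2 : ∀ a b c : ℤ, c ≠ 0 → ¬ (p : ℤ) ∣ a → ¬ (p : ℤ) ∣ b → (p : ℤ) ∣ c → IsCoprime a b →
      a ^ p + b ^ p ≠ c ^ p) :
    FermatLastTheoremFor p := by
  have hp : p.Prime := Fact.out
  have hpp : Prime (p : ℤ) := Nat.prime_iff_prime_int.mp hp
  have hodd : Odd p := hp.odd_of_ne_two hp2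
  rw [fermatLastTheoremFor_iff_int]
  refine fermatLastTheoremWith_of_fermatLastTheoremWith_coprime (fun a b c ha hb hc Hgcd hF ↦ ?_)
  by_cases h1 : (p : ℤ) ∣ a * b * c
  swap
  · exact H1 a b c Hgcd h1 hF
  rw [hpp.dvd_mul, hpp.dvd_mul] at h1
  rw [← sub_eq_zero, sub_eq_add_neg, ← hodd.neg_pow] at hF
  rcases h1 with (hpa | hpb) | hpc
  · refine reduction_ne_zero_of_dvd_a_of_gcd_eq_one_of_case2 hpp hodd ha hpa ?_ H2 hF
    simp only [← Hgcd, Finset.gcd_insert, Finset.gcd_singleton, id_eq, ← Int.abs_eq_normalize,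
      abs_neg]
  · rw [add_comm (a ^ p)] at hF
    refine reduction_ne_zero_of_dvd_a_of_gcd_eq_one_of_case2 hpp hodd hb hpb ?_ H2 hF
    simp only [← Hgcd, Finset.insert_comm, Finset.gcd_insert, Finset.gcd_singleton, id_eq,
      ← Int.abs_eq_normalize, abs_neg]
  · rw [add_comm _ ((-c) ^ p), ← add_assoc] at hF
    refine reduction_ne_zero_of_dvd_a_of_gcd_eq_one_of_case2 hpp hodd (neg_ne_zero.2 hc)
      (by simp [hpc]) ?_ H2 hF
    rw [Finset.insert_comm (-c), Finset.pair_comm (-c) b]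
    simp only [← Hgcd, Finset.gcd_insert, Finset.gcd_singleton, id_eq, ← Int.abs_eq_normalize,
      abs_neg]

end Fermat.Agent.KummerL
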