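import Mathlib
import Fermat.Agent.KummerL.Defs

/-!
# `𝓞 ℚ(ζ_13)` is a principal ideal domain

The Minkowski bound of `K = ℚ(ζ₁₃)` is `≈ 306.42`.  By the Galois version of the Minkowski
criterion it suffices to exhibit, for every prime `q ≤ 306`, one prime ideal `P` above `q` with
`306 < q ^ f(P)` or `P` principal.  For `q ∉ {3, 13, 53, 79, 131, 157}` the inertia degree
(the order of `q` modulo `13`) is large enough.  The prime above `13` is `(ζ - 1)`.  For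
`q = 53, 79, 131, 157` (totally split) and `q = 3` (inertia degree `3`) we exhibit, via
Kummer–Dedekind, a prime `(q, Q(ζ))` and an explicit generator.
-/

set_option autoImplicit false

namespace Fermat.Agent.KummerL

open NumberField Polynomial

section pid13

variable (K : Type*) [Field K] [NumberField K] [IsCyclotomicExtension {13} ℚ K]

/-! ### The Minkowski bound -/

/-- The Minkowski bound of `ℚ(ζ₁₃)` is smaller than `307`. -/
theorem pid13_floor_le :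
    ⌊(4 / Real.pi) ^ InfinitePlace.nrComplexPlaces K *
      ((Nat.factorial (Module.finrank ℚ K) : ℝ) /
        (Module.finrank ℚ K : ℝ) ^ (Module.finrank ℚ K) * √|(discr K : ℝ)|)⌋₊ ≤ 306 := by
  rw [IsCyclotomicExtension.Rat.discr_prime 13 K, IsCyclotomicExtension.finrank (n := 13) K
    (Polynomial.cyclotomic.irreducible_rat (by simp)),
    IsCyclotomicExtension.Rat.nrComplexPlaces_eq_totient_div_two 13,
    Nat.totient_prime (by norm_num : Nat.Prime 13)]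
  have h1 : (4 / Real.pi) ^ 6 ≤ (4 / 3.1415 : ℝ) ^ 6 := by
    gcongr
    exact Real.pi_gt_d4.le
  have h2 : √(1792160394037 : ℝ) ≤ 1338717 := by
    rw [Real.sqrt_le_iff]
    constructor <;> norm_num
  have hfac : Nat.factorial 12 = 479001600 := by decide
  have h3 : (4 / Real.pi) ^ 6 * ((479001600 : ℝ) / 12 ^ 12 * √(1792160394037 : ℝ)) < 307 := by
    calc (4 / Real.pi) ^ 6 * ((479001600 : ℝ) / 12 ^ 12 * √(1792160394037 : ℝ))
        ≤ (4 / 3.1415 : ℝ) ^ 6 * ((479001600 : ℝ) / 12 ^ 12 * 1338717) := by gcongr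
      _ < 307 := by norm_num
  have h4 : ⌊(4 / Real.pi) ^ 6 * ((479001600 : ℝ) / 12 ^ 12 * √(1792160394037 : ℝ))⌋₊ < 307 := by
    rw [Nat.floor_lt (by positivity)]
    exact_mod_cast h3
  have h5 : ((-1 : ℤ) ^ ((13 - 1) / 2) * ((13 : ℕ) : ℤ) ^ (13 - 2) : ℤ) = 1792160394037 := by
    norm_num
  rw [h5]
  simp only [Nat.reduceSub, Nat.reduceDiv, hfac, Nat.cast_ofNat, Int.cast_ofNat,
    abs_of_pos (show (0 : ℝ) < 1792160394037 by norm_num)]
  omega

/-! ### Kummer–Dedekind for `θ = ζ₁₃` -/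

/-- The chosen primitive `13`-th root of unity, as an algebraic integer. -/
noncomputable abbrev pid13_θ : 𝓞 K := (IsCyclotomicExtension.zeta_spec 13 ℚ K).toInteger

theorem pid13_rel :
    1 + pid13_θ K + pid13_θ K ^ 2 + pid13_θ K ^ 3 + pid13_θ K ^ 4 + pid13_θ K ^ 5 + pid13_θ K ^ 6
      + pid13_θ K ^ 7 + pid13_θ K ^ 8 + pid13_θ K ^ 9 + pid13_θ K ^ 10 + pid13_θ K ^ 11
      + pid13_θ K ^ 12 = 0 := by
  have h := (IsCyclotomicExtension.zeta_spec 13 ℚ K).toInteger_isPrimitiveRoot.geom_sum_eq_zero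
    (by norm_num)
  simpa [Finset.sum_range_succ] using h

theorem pid13_minpoly : minpoly ℤ (pid13_θ K) = cyclotomic 13 ℤ := by
  rw [cyclotomic_eq_minpoly (IsCyclotomicExtension.zeta_spec 13 ℚ K) (by norm_num),
    ← (IsCyclotomicExtension.zeta_spec 13 ℚ K).coe_toInteger, ← RingOfIntegers.minpoly_coe]
  rfl

theorem pid13_not_dvd_exponent (q : ℕ) [hq : Fact q.Prime] :
    ¬ q ∣ RingOfIntegers.exponent (pid13_θ K) := by
  rw [RingOfIntegers.exponent_eq_one_iff.mpr <|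
    IsCyclotomicExtension.Rat.adjoin_singleton_eq_top (IsCyclotomicExtension.zeta_spec 13 ℚ K)]
  exact hq.out.not_dvd_one

/-- Kummer–Dedekind: if `Q mod q` is a monic irreducible factor of `Φ₁₃ mod q` then
`(q, Q(θ))` is a prime ideal above `q`. -/
theorem pid13_mem_primesOver (q : ℕ) [hq : Fact q.Prime] (Q : ℤ[X])
    (hirr : Irreducible (Q.map (Int.castRingHom (ZMod q))))
    (hmonic : (Q.map (Int.castRingHom (ZMod q))).Monic)
    (hdvd : Q.map (Int.castRingHom (ZMod q)) ∣ cyclotomic 13 (ZMod q)) :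
    Ideal.span {(q : 𝓞 K), aeval (pid13_θ K) Q} ∈
      Ideal.primesOver (Ideal.span {(q : ℤ)}) (𝓞 K) := by
  have h₁ := pid13_not_dvd_exponent K q
  have hQ : Q.map (Int.castRingHom (ZMod q)) ∈ RingOfIntegers.monicFactorsMod (pid13_θ K) q := by
    rw [Multiset.mem_toFinset, Polynomial.mem_normalizedFactors_iff
      (map_monic_ne_zero (minpoly.monic (pid13_θ K).isIntegral))]
    refine ⟨hirr, hmonic, ?_⟩
    rw [pid13_minpoly, map_cyclotomic_int]
    exact hdvd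
  rw [← NumberField.Ideal.primesOverSpanEquivMonicFactorsMod_symm_apply_eq_span h₁ hQ]
  exact ((NumberField.Ideal.primesOverSpanEquivMonicFactorsMod h₁).symm ⟨_, hQ⟩).prop

/-- An ideal `(a, b)` is principal, generated by `α`, as soon as `α ∣ a`, `α ∣ b` and
`α ∈ (a, b)`. -/
theorem pid13_isPrincipal_span_pair {R : Type*} [CommRing R] (a b α β γ x y : R)
    (h1 : α * β = a) (h2 : α * γ = b) (h3 : α = a * x + b * y) :
    Submodule.IsPrincipal (Ideal.span {a, b}) := by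
  refine ⟨α, ?_⟩
  apply le_antisymm
  · rw [Ideal.submodule_span_eq, Ideal.span_le]
    intro z hz
    rcases hz with rfl | rfl
    · exact Ideal.mem_span_singleton.mpr ⟨β, h1.symm⟩
    · exact Ideal.mem_span_singleton.mpr ⟨γ, h2.symm⟩
  · rw [Ideal.submodule_span_eq, Ideal.span_le]
    intro z hz
    rw [Set.mem_singleton_iff] at hz
    subst hz
    exact Ideal.mem_span_pair.mpr ⟨x, y, by rw [h3]; ring⟩

/-- A totally split prime `q` with a principal prime above it: if `r` is a root of `Φ₁₃` modulo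
`q`, then `(q, θ - r)` is a prime above `q`; it is generated by `α` as soon as `α ∣ q`,
`α ∣ θ - r` and `α ∈ (q, θ - r)`. -/
theorem pid13_split (q : ℕ) [hq : Fact q.Prime] (r : ℤ)
    (hr : (q : ℤ) ∣ ∑ i ∈ Finset.range 13, r ^ i) (α β γ x y : 𝓞 K)
    (h1 : α * β = (q : 𝓞 K)) (h2 : α * γ = pid13_θ K - (r : 𝓞 K))
    (h3 : α = (q : 𝓞 K) * x + (pid13_θ K - (r : 𝓞 K)) * y) :
    ∃ P ∈ Ideal.primesOver (Ideal.span {(q : ℤ)}) (𝓞 K), Submodule.IsPrincipal P := by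
  have hmap : (X - C r : ℤ[X]).map (Int.castRingHom (ZMod q)) = X - C (r : ZMod q) := by
    simp
  have hmem := pid13_mem_primesOver K q (X - C r) (by rw [hmap]; exact irreducible_X_sub_C _)
    (by rw [hmap]; exact monic_X_sub_C _) (by
      rw [hmap, dvd_iff_isRoot, IsRoot.def, cyclotomic_prime, eval_finsetSum]
      simp only [eval_pow, eval_X]
      have := (ZMod.intCast_zmod_eq_zero_iff_dvd (∑ i ∈ Finset.range 13, r ^ i) q).mpr hr
      simpa using this)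
  have haeval : aeval (pid13_θ K) (X - C r : ℤ[X]) = pid13_θ K - (r : 𝓞 K) := by
    simp
  rw [haeval] at hmem
  exact ⟨_, hmem, pid13_isPrincipal_span_pair _ _ α β γ x y h1 h2 h3⟩

/-! ### The explicit principal primes -/

/-- A principal prime above `3`: `(3, θ ^ 3 - θ - 1) = (θ ^ 3 - θ - 1)`, where `X ^ 3 - X - 1` is
an irreducible factor of `Φ₁₃` modulo `3`. -/
theorem pid13_principal_3 :
    ∃ P ∈ Ideal.primesOver (Ideal.span {((3 : ℕ) : ℤ)}) (𝓞 K), Submodule.IsPrincipal P := by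
  have h := pid13_rel K
  set θ := pid13_θ K with hθ
  have hmap : (X ^ 3 - X - 1 : ℤ[X]).map (Int.castRingHom (ZMod 3)) = X ^ 3 - X - 1 := by simp
  have hmonic : (X ^ 3 - X - 1 : (ZMod 3)[X]).Monic := by monicity!
  have hdeg : (X ^ 3 - X - 1 : (ZMod 3)[X]).natDegree = 3 := by compute_degree!
  have hirr : Irreducible (X ^ 3 - X - 1 : (ZMod 3)[X]) := by
    apply irreducible_of_degree_le_three_of_not_isRoot
    · rw [hdeg]; decide
    · intro x
      simp only [IsRoot.def, eval_sub, eval_pow, eval_X, eval_one]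
      revert x; decide
  have hdvd : (X ^ 3 - X - 1 : (ZMod 3)[X]) ∣ cyclotomic 13 (ZMod 3) := by
    have h3 : (3 : (ZMod 3)[X]) = 0 := by
      exact_mod_cast CharP.cast_eq_zero (ZMod 3)[X] 3
    refine ⟨-1 - X ^ 2 - X ^ 3 + X ^ 5 - X ^ 7 + X ^ 8 + X ^ 9, ?_⟩
    rw [cyclotomic_prime]
    simp only [Finset.sum_range_succ, Finset.sum_range_zero]
    linear_combination (X ^ 5 + X ^ 6 + X ^ 9 + X ^ 10) * h3
  have hmem := pid13_mem_primesOver K 3 (X ^ 3 - X - 1) (by rw [hmap]; exact hirr)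
    (by rw [hmap]; exact hmonic) (by rw [hmap]; exact hdvd)
  have haeval : aeval θ (X ^ 3 - X - 1 : ℤ[X]) = θ ^ 3 - θ - 1 := by simp
  rw [haeval] at hmem
  refine ⟨_, hmem, pid13_isPrincipal_span_pair _ _ (θ ^ 3 - θ - 1)
    (1 + θ ^ 2 + θ ^ 3 + 2 * θ ^ 5 + θ ^ 7 + 2 * θ ^ 8 - θ ^ 9 + 3 * θ ^ 10) 1 0 1 ?_ ?_ ?_⟩
  · linear_combination (-4 + 3 * θ) * h
  · ring
  · ring

/-- A principal prime above `53`: `(53, θ - 16) = (1 - θ + θ ^ 3)`. -/
theorem pid13_principal_53 :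
    ∃ P ∈ Ideal.primesOver (Ideal.span {((53 : ℕ) : ℤ)}) (𝓞 K), Submodule.IsPrincipal P := by
  have : Fact (Nat.Prime 53) := ⟨by norm_num⟩
  have h := pid13_rel K
  set θ := pid13_θ K with hθ
  refine pid13_split K 53 16 (by norm_num [Finset.sum_range_succ]) (1 - θ + θ ^ 3)
    (25 + 10 * θ + 19 * θ ^ 2 + 3 * θ ^ 3 + 2 * θ ^ 4 - 8 * θ ^ 5 - 2 * θ ^ 6 + 5 * θ ^ 7 + 22 * θ ^ 8
      + 33 * θ ^ 9 + 37 * θ ^ 10 + 24 * θ ^ 11)
    (-8 - 3 * θ - 6 * θ ^ 2 - θ ^ 3 - θ ^ 4 + 2 * θ ^ 5 - 2 * θ ^ 7 - 7 * θ ^ 8 - 10 * θ ^ 9 - 11 * θ ^ 10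
      - 7 * θ ^ 11)
    77 (255 + 16 * θ + θ ^ 2) ?_ ?_ ?_
  · linear_combination (-28 + 13 * θ + 24 * θ ^ 2) * h
  · linear_combination (8 - 4 * θ - 7 * θ ^ 2) * h
  · push_cast; ring

/-- A principal prime above `79`: `(79, θ - 62) = (1 - θ - θ ^ 4)`. -/
theorem pid13_principal_79 :
    ∃ P ∈ Ideal.primesOver (Ideal.span {((79 : ℕ) : ℤ)}) (𝓞 K), Submodule.IsPrincipal P := by
  have : Fact (Nat.Prime 79) := ⟨by norm_num⟩
  have h := pid13_rel K
  set θ := pid13_θ K with hθ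
  refine pid13_split K 79 62 (by norm_num [Finset.sum_range_succ]) (1 - θ - θ ^ 4)
    (62 + 63 * θ + 49 * θ ^ 2 + 8 * θ ^ 3 + 29 * θ ^ 4 + 51 * θ ^ 5 + 59 * θ ^ 6 + 26 * θ ^ 7 + 14 * θ ^ 8
      + 24 * θ ^ 9 + 42 * θ ^ 10 + 27 * θ ^ 11)
    (-49 - 49 * θ - 38 * θ ^ 2 - 6 * θ ^ 3 - 23 * θ ^ 4 - 40 * θ ^ 5 - 46 * θ ^ 6 - 20 * θ ^ 7 - 11 * θ ^ 8
      - 19 * θ ^ 9 - 33 * θ ^ 10 - 21 * θ ^ 11)
    (-187043) (-238329 - 3844 * θ - 62 * θ ^ 2 - θ ^ 3) ?_ ?_ ?_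
  · linear_combination (-17 + 18 * θ - 15 * θ ^ 2 - 27 * θ ^ 3) * h
  · linear_combination (13 - 14 * θ + 12 * θ ^ 2 + 21 * θ ^ 3) * h
  · push_cast; ring

/-- A principal prime above `131`: `(131, θ - 80) = (1 - θ - θ ^ 3)`. -/
theorem pid13_principal_131 :
    ∃ P ∈ Ideal.primesOver (Ideal.span {((131 : ℕ) : ℤ)}) (𝓞 K), Submodule.IsPrincipal P := by
  have : Fact (Nat.Prime 131) := ⟨by norm_num⟩
  have h := pid13_rel K
  set θ := pid13_θ K with hθ
  refine pid13_split K 131 80 (by norm_num [Finset.sum_range_succ]) (1 - θ - θ ^ 3)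
    (111 + 78 * θ + 17 * θ ^ 2 + 67 * θ ^ 3 + 84 * θ ^ 4 + 40 * θ ^ 5 + 46 * θ ^ 6 + 69 * θ ^ 7 + 48 * θ ^ 8
      + 33 * θ ^ 9 + 41 * θ ^ 10 + 28 * θ ^ 11)
    (-68 - 47 * θ - 10 * θ ^ 2 - 41 * θ ^ 3 - 51 * θ ^ 4 - 24 * θ ^ 5 - 28 * θ ^ 6 - 42 * θ ^ 7 - 29 * θ ^ 8
      - 20 * θ ^ 9 - 25 * θ ^ 10 - 17 * θ ^ 11)
    (-3909) (-6401 - 80 * θ - θ ^ 2) ?_ ?_ ?_
  · linear_combination (-20 - 13 * θ - 28 * θ ^ 2) * h
  · linear_combination (12 + 8 * θ + 17 * θ ^ 2) * h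
  · push_cast; ring

/-- A principal prime above `157`: `(157, θ - 75) = (1 - θ + θ ^ 2 + θ ^ 4)`. -/
theorem pid13_principal_157 :
    ∃ P ∈ Ideal.primesOver (Ideal.span {((157 : ℕ) : ℤ)}) (𝓞 K), Submodule.IsPrincipal P := by
  have : Fact (Nat.Prime 157) := ⟨by norm_num⟩
  have h := pid13_rel K
  set θ := pid13_θ K with hθ
  refine pid13_split K 157 75 (by norm_num [Finset.sum_range_succ]) (1 - θ + θ ^ 2 + θ ^ 4)
    (89 + 86 * θ + 42 * θ ^ 2 + 77 * θ ^ 3 + 67 * θ ^ 4 + 25 * θ ^ 5 + 37 * θ ^ 6 + 56 * θ ^ 7 + 73 * θ ^ 8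
      + 113 * θ ^ 9 + 124 * θ ^ 10 + 76 * θ ^ 11)
    (-43 - 41 * θ - 20 * θ ^ 2 - 37 * θ ^ 3 - 32 * θ ^ 4 - 12 * θ ^ 5 - 18 * θ ^ 6 - 27 * θ ^ 7 - 35 * θ ^ 8
      - 54 * θ ^ 9 - 59 * θ ^ 10 - 36 * θ ^ 11)
    201568 (421949 + 5626 * θ + 75 * θ ^ 2 + θ ^ 3) ?_ ?_ ?_
  · linear_combination (-68 + 65 * θ + 48 * θ ^ 2 + 76 * θ ^ 3) * h
  · linear_combination (32 - 31 * θ - 23 * θ ^ 2 - 36 * θ ^ 3) * h
  · push_cast; ring

/-! ### The ramified prime and the primes with large inertia degree -/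

/-- The prime above `13` is principal. -/
theorem pid13_ramified :
    ∃ P ∈ Ideal.primesOver (Ideal.span {((13 : ℕ) : ℤ)}) (𝓞 K), Submodule.IsPrincipal P := by
  have hK : IsCyclotomicExtension {13 ^ (0 + 1)} ℚ K := by
    rw [zero_add, pow_one]; infer_instance
  have hζ : IsPrimitiveRoot (IsCyclotomicExtension.zeta 13 ℚ K) (13 ^ (0 + 1)) := by
    rw [zero_add, pow_one]; exact IsCyclotomicExtension.zeta_spec 13 ℚ K
  exact ⟨Ideal.span {hζ.toInteger - 1},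
    ⟨IsCyclotomicExtension.Rat.isPrime_span_zeta_sub_one 13 0 hζ,
      IsCyclotomicExtension.Rat.liesOver_span_zeta_sub_one 13 0 hζ⟩, ⟨⟨_, rfl⟩⟩⟩

set_option maxRecDepth 100000 in
/-- A finite check: for a prime `q ≤ 306` other than `3, 13, 53, 79, 131, 157`, if `q ^ f ≡ 1`
modulo `13` with `0 < f`, then `306 < q ^ f`.  (Primality is only used through the absence of
the prime factors `≤ 17`.) -/
theorem pid13_order_aux : ∀ q < 307, ((∀ r ∈ [2, 3, 5, 7, 11, 13, 17], r ∣ q → q = r) ∧ 1 < q ∧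
    q ∉ [3, 13, 53, 79, 131, 157]) → ∀ f < 13, (0 < f ∧ q ^ f % 13 = 1) → 306 < q ^ f := by
  decide

/-- For the primes `q ≤ 306` other than `3, 13, 53, 79, 131, 157`, the norm of a prime above `q`
exceeds `306`. -/
theorem pid13_inert (q : ℕ) [hq : Fact q.Prime] (hq306 : q ≤ 306)
    (hq' : q ∉ [3, 13, 53, 79, 131, 157]) (P : Ideal (𝓞 K)) [P.IsPrime]
    [P.LiesOver (Ideal.span {(q : ℤ)})] : 306 < q ^ P.inertiaDeg ℤ := by
  have h13 : ¬ q ∣ 13 := by
    rw [Nat.prime_dvd_prime_iff_eq hq.out (by norm_num)]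
    rintro rfl
    simp at hq'
  rw [IsCyclotomicExtension.Rat.inertiaDeg_eq_of_not_dvd q K P h13]
  have hq0 : (q : ZMod 13) ≠ 0 := by
    rw [Ne, ZMod.natCast_eq_zero_iff]
    intro h'
    exact h13 (by rw [(Nat.prime_dvd_prime_iff_eq (by norm_num) hq.out).mp h'])
  have h12 : (q : ZMod 13) ^ 12 = 1 := ZMod.pow_card_sub_one_eq_one hq0
  have hfd : orderOf (q : ZMod 13) ∣ 12 := orderOf_dvd_of_pow_eq_one h12
  have hfpos : 0 < orderOf (q : ZMod 13) := Nat.pos_of_dvd_of_pos hfd (by norm_num)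
  have hfle : orderOf (q : ZMod 13) ≤ 12 := Nat.le_of_dvd (by norm_num) hfd
  have hpow : (q : ZMod 13) ^ orderOf (q : ZMod 13) = 1 := pow_orderOf_eq_one _
  have hmod : q ^ orderOf (q : ZMod 13) % 13 = 1 := by
    have h1 : ((q ^ orderOf (q : ZMod 13) : ℕ) : ZMod 13) = ((1 : ℕ) : ZMod 13) := by
      push_cast; exact hpow
    rw [ZMod.natCast_eq_natCast_iff'] at h1
    simpa using h1
  refine pid13_order_aux q (by omega) ⟨fun r hr hrq => ?_, hq.out.one_lt, hq'⟩ _ (by omega)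
    ⟨hfpos, hmod⟩
  have hrp : r.Prime := by
    simp only [List.mem_cons, List.not_mem_nil, or_false] at hr
    rcases hr with rfl | rfl | rfl | rfl | rfl | rfl | rfl <;> norm_num
  exact ((Nat.prime_dvd_prime_iff_eq hrp hq.out).mp hrq).symm

end pid13

/-! ### The main theorem -/

theorem pid_thirteen (K : Type*) [Field K] [NumberField K] [IsCyclotomicExtension {13} ℚ K] :
    IsPrincipalIdealRing (𝓞 K) := by
  have : IsGalois ℚ K := IsCyclotomicExtension.isGalois {13} ℚ K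
  refine RingOfIntegers.isPrincipalIdealRing_of_isPrincipal_of_lt_or_isPrincipal_of_mem_primesOver_of_mem_Icc
    (fun q hq hqp => ?_)
  have hfl := pid13_floor_le K
  have hq306 : q ≤ 306 := (Finset.mem_Icc.mp hq).2.trans hfl
  have : Fact q.Prime := ⟨hqp⟩
  by_cases hq' : q ∈ [3, 13, 53, 79, 131, 157]
  · have hex : ∃ P ∈ Ideal.primesOver (Ideal.span {(q : ℤ)}) (𝓞 K),
        Submodule.IsPrincipal P := by
      simp only [List.mem_cons, List.not_mem_nil, or_false] at hq'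
      rcases hq' with rfl | rfl | rfl | rfl | rfl | rfl
      · exact pid13_principal_3 K
      · exact pid13_ramified K
      · exact pid13_principal_53 K
      · exact pid13_principal_79 K
      · exact pid13_principal_131 K
      · exact pid13_principal_157 K
    obtain ⟨P, hP, hprinc⟩ := hex
    exact ⟨P, hP, Or.inr hprinc⟩
  · obtain ⟨⟨P, hP1, hP2⟩⟩ := (Ideal.span {(q : ℤ)}).nonempty_primesOver (S := 𝓞 K)
    exact ⟨P, ⟨hP1, hP2⟩, Or.inl (lt_of_le_of_lt hfl (pid13_inert K q hq306 hq' P))⟩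

end Fermat.Agent.KummerL
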