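import Mathlib
import Fermat.Agent.KummerL.Reduction
import Fermat.Agent.KummerL.Germain
import Fermat.Agent.KummerL.CaseII.Descent
import Fermat.Agent.KummerL.Cert13
import Fermat.Agent.KummerL.PID13

/-!
# Fermat's Last Theorem for the exponent `13` (Kummer)
-/

set_option autoImplicit false

namespace Fermat.Agent.KummerL

open NumberField

theorem flt_thirteen : FermatLastTheoremFor 13 := by
  have hne : NeZero ((13 : ℕ) : ℚ) := ⟨by norm_num⟩
  have hcyc : IsCyclotomicExtension {13} ℚ (CyclotomicField 13 ℚ) :=
    CyclotomicField.isCyclotomicExtension 13 ℚ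
  have hnf : NumberField (CyclotomicField 13 ℚ) :=
    IsCyclotomicExtension.numberField {13} ℚ (CyclotomicField 13 ℚ)
  have hpid : IsPrincipalIdealRing (𝓞 (CyclotomicField 13 ℚ)) := pid_thirteen _
  exact fermatLastTheoremFor_of_caseI_of_caseII 13 (by norm_num) caseI_thirteen
    (caseII (by norm_num) (CyclotomicField 13 ℚ) (kummerLemma_thirteen _))

end Fermat.Agent.KummerL
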