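import Mathlib
import Fermat.Agent.KummerL.Defs

/-!
# `𝓞 ℚ(ζ_7)` is a principal ideal domain
-/

set_option autoImplicit false

namespace Fermat.Agent.KummerL

open NumberField

/-- The degree of the `p`-th cyclotomic field (`p` prime) is `p - 1`. -/
theorem pid7_finrank (p : ℕ) [Fact p.Prime] (K : Type*) [Field K] [NumberField K]
    [IsCyclotomicExtension {p} ℚ K] : Module.finrank ℚ K = p - 1 := by
  have hp : p.Prime := Fact.out
  rw [IsCyclotomicExtension.finrank (n := p) K (Polynomial.cyclotomic.irreducible_rat hp.pos),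
    Nat.totient_prime hp]

/-- The number of complex places of the `p`-th cyclotomic field (`p` prime) is `(p - 1) / 2`. -/
theorem pid7_nrComplexPlaces (p : ℕ) [Fact p.Prime] (K : Type*) [Field K] [NumberField K]
    [IsCyclotomicExtension {p} ℚ K] : InfinitePlace.nrComplexPlaces K = (p - 1) / 2 := by
  have hp : p.Prime := Fact.out
  rw [IsCyclotomicExtension.Rat.nrComplexPlaces_eq_totient_div_two p K, Nat.totient_prime hp]

/-- The absolute discriminant of the `p`-th cyclotomic field (`p` prime) is `p ^ (p - 2)`. -/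
theorem pid7_abs_discr (p : ℕ) [Fact p.Prime] (K : Type*) [Field K] [NumberField K]
    [IsCyclotomicExtension {p} ℚ K] : |((discr K : ℤ) : ℝ)| = (p : ℝ) ^ (p - 2) := by
  rw [IsCyclotomicExtension.Rat.discr_prime p K]
  push_cast
  rw [abs_mul, abs_pow, abs_pow, abs_neg, abs_one, one_pow, one_mul, Nat.abs_cast]

/-- Generic upper bound for the floor of the Minkowski bound of the `p`-th cyclotomic field:
`c` is a lower bound for `π` and `s` an upper bound for `√(p ^ (p - 2))`. -/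
theorem pid7_floor_minkowski_le (p : ℕ) [Fact p.Prime] (K : Type*) [Field K] [NumberField K]
    [IsCyclotomicExtension {p} ℚ K] (B : ℕ) (c s : ℝ) (hc0 : 0 < c) (hc : c ≤ Real.pi)
    (hs : 0 ≤ s) (hs2 : (p : ℝ) ^ (p - 2) ≤ s ^ 2)
    (h : (4 / c) ^ ((p - 1) / 2) *
      (((p - 1).factorial : ℝ) / ((p - 1 : ℕ) : ℝ) ^ (p - 1) * s) < (B : ℝ) + 1) :
    ⌊(4 / Real.pi) ^ InfinitePlace.nrComplexPlaces K *
      (((Module.finrank ℚ K).factorial : ℝ) / (Module.finrank ℚ K : ℝ) ^ (Module.finrank ℚ K) *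
        √|((discr K : ℤ) : ℝ)|)⌋₊ ≤ B := by
  rw [pid7_finrank p K, pid7_nrComplexPlaces p K, pid7_abs_discr p K]
  apply Nat.lt_succ_iff.mp
  rw [Nat.floor_lt' (Nat.succ_ne_zero B)]
  push_cast
  refine lt_of_le_of_lt ?_ h
  gcongr
  exact Real.sqrt_le_iff.mpr ⟨hs, hs2⟩

/-- For a prime `q ≠ p` there is a prime of the `p`-th cyclotomic field over `q` whose inertia
degree is the multiplicative order of `q` modulo `p`. -/
theorem pid7_exists_primesOver_inertiaDeg (p : ℕ) [Fact p.Prime] (K : Type*) [Field K]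
    [NumberField K] [IsCyclotomicExtension {p} ℚ K] (q : ℕ) (hq : q.Prime) (hqp : q ≠ p) :
    ∃ P ∈ Ideal.primesOver (Ideal.span {(q : ℤ)}) (𝓞 K),
      P.inertiaDeg ℤ = orderOf (q : ZMod p) := by
  have hp : p.Prime := Fact.out
  have : Fact q.Prime := ⟨hq⟩
  obtain ⟨⟨P, hP1, hP2⟩⟩ := (Ideal.span {(q : ℤ)}).nonempty_primesOver (S := 𝓞 K)
  exact ⟨P, ⟨hP1, hP2⟩, IsCyclotomicExtension.Rat.inertiaDeg_eq_of_not_dvd q K P
    (fun h => hqp ((Nat.prime_dvd_prime_iff_eq hq hp).mp h))⟩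

/-- The prime of the `p`-th cyclotomic field over `p` is principal (generated by `ζ - 1`). -/
theorem pid7_exists_primesOver_self_isPrincipal (p : ℕ) [Fact p.Prime] (K : Type*) [Field K]
    [NumberField K] [hK : IsCyclotomicExtension {p} ℚ K] :
    ∃ P ∈ Ideal.primesOver (Ideal.span {(p : ℤ)}) (𝓞 K), Submodule.IsPrincipal P := by
  have hK' : IsCyclotomicExtension {p ^ (0 + 1)} ℚ K := by
    rw [zero_add, pow_one]
    exact hK
  have hζ : IsPrimitiveRoot (IsCyclotomicExtension.zeta p ℚ K) (p ^ (0 + 1)) := by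
    rw [zero_add, pow_one]
    exact IsCyclotomicExtension.zeta_spec p ℚ K
  exact ⟨Ideal.span {hζ.toInteger - 1},
    ⟨IsCyclotomicExtension.Rat.isPrime_span_zeta_sub_one p 0 hζ,
      IsCyclotomicExtension.Rat.liesOver_span_zeta_sub_one p 0 hζ⟩, ⟨⟨_, rfl⟩⟩⟩

/-- Generic PID criterion for the `p`-th cyclotomic field: if `B` bounds the (floor of the)
Minkowski bound, it suffices that for every prime `q ≤ B`, `q ≠ p`, either `B < q ^ f` where `f`
is the order of `q` modulo `p`, or some prime over `q` is principal. -/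
theorem pid7_isPrincipalIdealRing_of_forall (p : ℕ) [Fact p.Prime] (K : Type*) [Field K]
    [NumberField K] [IsCyclotomicExtension {p} ℚ K] (B : ℕ)
    (hB : ⌊(4 / Real.pi) ^ InfinitePlace.nrComplexPlaces K *
      (((Module.finrank ℚ K).factorial : ℝ) / (Module.finrank ℚ K : ℝ) ^ (Module.finrank ℚ K) *
        √|((discr K : ℤ) : ℝ)|)⌋₊ ≤ B)
    (h : ∀ q ∈ Finset.Icc 1 B, q.Prime → q ≠ p →
      B < q ^ orderOf (q : ZMod p) ∨
        ∃ P ∈ Ideal.primesOver (Ideal.span {(q : ℤ)}) (𝓞 K), Submodule.IsPrincipal P) :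
    IsPrincipalIdealRing (𝓞 K) := by
  have : IsGalois ℚ K := IsCyclotomicExtension.isGalois {p} ℚ K
  refine RingOfIntegers.isPrincipalIdealRing_of_isPrincipal_of_lt_or_isPrincipal_of_mem_primesOver_of_mem_Icc
    (fun q hq hqprime => ?_)
  by_cases hqp : q = p
  · subst hqp
    obtain ⟨P, hP, hPp⟩ := pid7_exists_primesOver_self_isPrincipal q K
    exact ⟨P, hP, Or.inr hPp⟩
  · have hq' : q ∈ Finset.Icc 1 B := by
      rw [Finset.mem_Icc] at hq ⊢
      exact ⟨hq.1, hq.2.trans hB⟩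
    rcases h q hq' hqprime hqp with h1 | ⟨P, hP, hPp⟩
    · obtain ⟨P, hP, hf⟩ := pid7_exists_primesOver_inertiaDeg p K q hqprime hqp
      exact ⟨P, hP, Or.inl (by rw [hf]; exact lt_of_le_of_lt hB h1)⟩
    · exact ⟨P, hP, Or.inr hPp⟩

/-- Lower bound for `q ^ orderOf (q : ZMod p)`: it suffices to check that no power `q ^ k` with
`1 ≤ k < L` is `1` modulo `p`, where `B < q ^ L`. -/
theorem pid7_lt_pow_orderOf (p q B L : ℕ) [Fact p.Prime] (hq : 1 < q) (hqp : ¬ p ∣ q)
    (hL : B < q ^ L) (h : ∀ k ∈ Finset.Ico 1 L, q ^ k % p ≠ 1) :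
    B < q ^ orderOf (q : ZMod p) := by
  have hp : p.Prime := Fact.out
  have hq0 : (q : ZMod p) ≠ 0 := by
    rwa [Ne, ZMod.natCast_eq_zero_iff]
  have hpos : 0 < orderOf (q : ZMod p) := by
    have : IsOfFinOrder (q : ZMod p) := by
      refine isOfFinOrder_iff_pow_eq_one.mpr ⟨p - 1, by have := hp.two_le; omega, ?_⟩
      exact ZMod.pow_card_sub_one_eq_one hq0
    exact this.orderOf_pos
  have hle : L ≤ orderOf (q : ZMod p) := by
    by_contra hlt
    replace hlt := not_le.mp hlt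
    have h1 := h (orderOf (q : ZMod p)) (Finset.mem_Ico.mpr ⟨hpos, hlt⟩)
    apply h1
    have h2 : ((q ^ orderOf (q : ZMod p) : ℕ) : ZMod p) = ((1 : ℕ) : ZMod p) := by
      push_cast
      exact pow_orderOf_eq_one _
    rw [ZMod.natCast_eq_natCast_iff'] at h2
    rw [h2]
    exact Nat.mod_eq_of_lt hp.one_lt
  exact lt_of_lt_of_le hL (Nat.pow_le_pow_right hq.le hle)

theorem pid_seven (K : Type*) [Field K] [NumberField K] [IsCyclotomicExtension {7} ℚ K] :
    IsPrincipalIdealRing (𝓞 K) := by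
  refine pid7_isPrincipalIdealRing_of_forall 7 K 4 ?_ ?_
  · refine pid7_floor_minkowski_le 7 K 4 3 130 (by norm_num) Real.pi_gt_three.le (by norm_num)
      (by norm_num) ?_
    norm_num [Nat.factorial]
  · intro q hq hqprime hq7
    left
    rw [Finset.mem_Icc] at hq
    obtain ⟨hq1, hq4⟩ := hq
    interval_cases q
    · exact absurd hqprime (by norm_num)
    · exact pid7_lt_pow_orderOf 7 2 4 3 (by norm_num) (by norm_num) (by norm_num) (by decide)
    · exact pid7_lt_pow_orderOf 7 3 4 2 (by norm_num) (by norm_num) (by norm_num) (by decide)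
    · exact absurd hqprime (by norm_num)

end Fermat.Agent.KummerL
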